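import Fermat.Agent.S36.Inst.Concrete
import Fermat.Agent.S36.Phi.Interface
import Fermat.Agent.S36.Val.All
import Fermat.Agent.S36.Val.JVal
import Fermat.Agent.S36.Val.MidUnram
import Fermat.Agent.S36.Val.PhiLevel

/-!
# S36 / Inst / C1 : the structure `Reg.FactsJ` for `C : Val.Ctx` (helper54)
-/

set_option autoImplicit false

noncomputable section

namespace Fermat.Agent.S36.Inst

open Fermat.Agent
open Fermat.Agent.S24 (Qbar FF)
open Fermat.Agent.S36.Base Fermat.Agent.S36.Val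
open Fermat.Agent.CAR (NR.IsUnif)

section Abs

/-- from congruences between inverses to congruences between the elements. -/
theorem FactsJ_cong {F Γ₀ : Type*} [Field F] [LinearOrderedCommGroupWithZero Γ₀]
    (v : Valuation F Γ₀) {a b : F} (e : ℕ) (hb : v b = 1) (hab : v (a - b ^ e) < 1) :
    v a = 1 ∧ v (a⁻¹ - b⁻¹ ^ e) < 1 := by
  have hbe : v (b ^ e) = 1 := by rw [map_pow, hb, one_pow]
  have ha : v a = 1 := by
    have : a = b ^ e + (a - b ^ e) := by ring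
    rw [this, ← hbe]
    exact Valuation.map_add_eq_of_lt_left v (hbe ▸ hab)
  refine ⟨ha, ?_⟩
  have ha0 : a ≠ 0 := by
    rintro rfl
    rw [map_zero] at ha
    exact zero_ne_one ha
  have hb0 : b ≠ 0 := by
    rintro rfl
    rw [map_zero] at hb
    exact zero_ne_one hb
  have : a⁻¹ - b⁻¹ ^ e = -((a - b ^ e) * (a⁻¹ * b⁻¹ ^ e)) := by
    have h1 : a * a⁻¹ = 1 := mul_inv_cancel₀ ha0
    have h2 : b ^ e * b⁻¹ ^ e = 1 := by rw [← mul_pow, mul_inv_cancel₀ hb0, one_pow]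
    linear_combination b⁻¹ ^ e * h1 - a⁻¹ * h2
  rw [this, Valuation.map_neg, map_mul, map_mul, map_pow, map_inv₀, map_inv₀, ha, hb, inv_one,
    one_pow, mul_one, mul_one]
  exact hab

theorem FactsJ_shape {A₀ : Type*} [CommRing A₀] {r : ℕ} {c₀ : ℕ → ℕ → ℤ}
    (h : Reg.PhiShape r c₀) : Reg.PhiShape r (fun a b => ((c₀ a b : ℤ) : A₀)) where
  left b hb := by rw [h.left b hb, Int.cast_zero]
  left_top := by rw [h.left_top, Int.cast_one]
  right a ha := by rw [h.right a ha, Int.cast_zero]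
  right_top := by rw [h.right_top, Int.cast_one]
  one_one := by rw [h.one_one, Int.cast_neg, Int.cast_one]

theorem FactsJ_phi {A₀ F L : Type*} [CommRing A₀] [Field F] [Algebra A₀ F] [Field L]
    (ι : F →+* L) (r : ℕ) (c₀ : ℕ → ℕ → ℤ) (Z W : F) (z w : L) (hz : ι Z = z) (hw : ι W = w)
    (h : ∑ a ∈ Finset.range (r + 2), ∑ b ∈ Finset.range (r + 2),
      ((c₀ a b : ℤ) : L) * z⁻¹ ^ a * w⁻¹ ^ b = 0) :
    Reg.phiStar r (fun a b => ((c₀ a b : ℤ) : A₀)) Z⁻¹ W⁻¹ = 0 := by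
  apply ι.injective
  rw [map_zero, Reg.phiStar, map_sum, ← h]
  refine Finset.sum_congr rfl fun a _ => ?_
  rw [map_sum]
  refine Finset.sum_congr rfl fun b _ => ?_
  rw [map_mul, map_mul, map_pow, map_pow, map_inv₀, map_inv₀, hz, hw, map_intCast, map_intCast]

/-- the abstract assembly. -/
theorem FactsJ_abs (A₀ F : Type) [CommRing A₀] [Field F] [Algebra A₀ F] (r : ℕ)
    (O : Fin 3 → ValuationSubring F) (u : Fin 3 → F) (hU : ∀ X, NR.IsUnif (O X) (u X))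
    (ord : Fin 3 → F → ℤ) (hord : ∀ X, ord X = ordOf (O X) (u X)) (F1 : Subfield F)
    (c : ℕ → ℕ → A₀) (j j1 j2 : F) (shape : Reg.PhiShape r c)
    (phi10 : Reg.phiStar r c j1⁻¹ j⁻¹ = 0) (phi01 : Reg.phiStar r c j⁻¹ j1⁻¹ = 0)
    (phi21 : Reg.phiStar r c j2⁻¹ j1⁻¹ = 0)
    (hA : (O 0).valuation j⁻¹ = 1 ∧ (O 0).valuation (j1⁻¹ - j⁻¹ ^ r) < 1 ∧
      (O 0).valuation (j2⁻¹ - j1⁻¹ ^ r) < 1)
    (hM : (O 1).valuation j⁻¹ = 1 ∧ (O 1).valuation (j1⁻¹ - j⁻¹ ^ r) < 1)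
    (hC : (O 2).valuation j2⁻¹ = 1 ∧ (O 2).valuation (j1⁻¹ - j2⁻¹ ^ r) < 1 ∧
      (O 2).valuation (j⁻¹ - j1⁻¹ ^ r) < 1)
    (m2 : j2 - j ≠ 0 ∧ ord 1 (j2 - j) = 1)
    (const_mem : ∀ a : A₀, algebraMap A₀ F a ∈ F1) (j_mem : j ∈ F1) (j1_mem : j1 ∈ F1)
    (hr0 : (r : F) ≠ 0) (hordr : ord 1 (r : F) = (r : ℤ) - 1)
    (hun : ∀ y ∈ F1, (O 1).valuation y < 1 → y / (r : F) ∈ O 1) :
    ∃ J : Reg.FactsJ A₀ F r ord F1, J.j = j := by
  have hpos : ∀ X z, VPos (ord X) z ↔ (O X).valuation z < 1 := fun X z => by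
    rw [hord X]; exact (stmt_OrdOf F (O X) (u X) (hU X)).2.2.2.1 z
  have hunit : ∀ X z, VUnit (ord X) z ↔ (O X).valuation z = 1 := fun X z => by
    rw [hord X]; exact (stmt_OrdOf F (O X) (u X) (hU X)).2.2.2.2.1 z
  have hmul : ∀ X x y, x ≠ 0 → y ≠ 0 → ord X (x * y) = ord X x + ord X y := fun X x y => by
    rw [hord X]; exact (stmt_OrdOf F (O X) (u X) (hU X)).2.2.1 x y
  have hinv : ∀ (X : Fin 3) (z : F), (O X).valuation z⁻¹ = 1 → (O X).valuation z = 1 := by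
    intro X z hz
    rw [map_inv₀, inv_eq_one] at hz
    exact hz
  obtain ⟨hA0, hA1, hA2⟩ := hA
  obtain ⟨hM0, hM1⟩ := hM
  obtain ⟨hC0, hC1, hC2⟩ := hC
  have kA1 := FactsJ_cong (O 0).valuation r hA0 hA1
  have kA2 := FactsJ_cong (O 0).valuation r kA1.1 hA2
  have kM1 := FactsJ_cong (O 1).valuation r hM0 hM1
  have kC1 := FactsJ_cong (O 2).valuation r hC0 hC1
  have kC2 := FactsJ_cong (O 2).valuation r kC1.1 hC2
  simp only [inv_inv] at kA1 kA2 kM1 kC1 kC2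
  refine ⟨{ c := c, j := j, j1 := j1, j2 := j2, shape := shape, phi10 := phi10, phi01 := phi01,
            phi21 := phi21,
            a0 := (hunit 0 j).2 (hinv 0 j hA0), a1 := (hpos 0 _).2 kA1.2,
            a2 := (hpos 0 _).2 kA2.2,
            m0 := (hunit 1 j).2 (hinv 1 j hM0), m1 := (hpos 1 _).2 kM1.2, m2 := m2,
            c0 := (hunit 2 j2).2 (hinv 2 j2 hC0), c1 := (hpos 2 _).2 kC1.2,
            c2 := (hpos 2 _).2 kC2.2,
            const_mem := const_mem, j_mem := j_mem, j1_mem := j1_mem, unram := ?_ }, rfl⟩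
  intro y hy hyp
  by_cases hy0 : y = 0
  · exact Or.inl hy0
  right
  have hz := hun y hy ((hpos 1 y).1 hyp)
  have hz0 : y / (r : F) ≠ 0 := div_ne_zero hy0 hr0
  have hnn : 0 ≤ ord 1 (y / (r : F)) := by
    rcases lt_or_eq_of_le (((O 1).valuation_le_one_iff _).2 hz) with h1 | h1
    · rcases (hpos 1 _).2 h1 with h2 | h2
      · exact absurd h2 hz0
      · exact h2.le
    · exact ((hunit 1 _).2 h1).2.ge
  have h3 : ord 1 y = ord 1 (y / (r : F)) + ord 1 (r : F) := by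
    rw [← hmul 1 _ _ hz0 hr0, div_mul_cancel₀ _ hr0]
  rw [h3, hordr]
  omega

end Abs

theorem factsJ (hPhi : Phi.Stmt_Phi) : Stmt_FactsJ := by
  intro A r M _ _ _ _ C
  obtain ⟨c₀, hshape, hphi⟩ := hPhi r C.hr
  obtain ⟨-, -, -, -, hA, ⟨hM0, hM1, -⟩, hC, -, -, -, -, -⟩ :=
    stmt_JVal stmt_PhiGen stmt_JFrob stmt_GVTw all_Main1 all_PM A r M C _ _ _ rfl rfl rfl
  obtain ⟨hU, ⟨-, hordr, -⟩, ⟨-, hordp, -⟩, -⟩ := all_Main1 A r M C
  obtain ⟨hpM0, -⟩ := all_PM A r M C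
  have hd1 : 1 ∣ r ^ 2 * M := one_dvd _
  have hdr : r ∣ r ^ 2 * M := ⟨r * M, by ring⟩
  have hdrr : r ^ 2 ∣ r ^ 2 * M := Dvd.intro _ rfl
  have h1 := hphi (IE A) 1 one_pos
  have hr := hphi (IE A) r C.hr.pos
  rw [mul_one] at h1
  rw [← sq] at hr
  exact FactsJ_abs (AE A) (FE A (r ^ 2 * M)) r C.O C.unif hU C.ord (fun _ => rfl)
    C.i12.fieldRange (fun a b => ((c₀ a b : ℤ) : AE A))
    (jE A (r ^ 2 * M) 1) (jE A (r ^ 2 * M) r) (jE A (r ^ 2 * M) (r ^ 2)) (FactsJ_shape hshape)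
    (FactsJ_phi (algebraMap (FE A (r ^ 2 * M)) (Base.LE A)) r c₀ _ _ _ _
      (isJE_jE A _ hdr) (isJE_jE A _ hd1) h1.1)
    (FactsJ_phi (algebraMap (FE A (r ^ 2 * M)) (Base.LE A)) r c₀ _ _ _ _
      (isJE_jE A _ hd1) (isJE_jE A _ hdr) h1.2)
    (FactsJ_phi (algebraMap (FE A (r ^ 2 * M)) (Base.LE A)) r c₀ _ _ _ _
      (isJE_jE A _ hdrr) (isJE_jE A _ hdr) hr.1)
    hA ⟨hM0, hM1⟩ hC ⟨hpM0, hordp⟩
    (fun a => RingHom.mem_fieldRange.2 ⟨_, (stmt_LevelConst A r M C).1 a⟩)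
    (RingHom.mem_fieldRange.2 ⟨_, PhiLevel_incl_jE A C.i12 C.hi12 (one_dvd _) hd1⟩)
    (RingHom.mem_fieldRange.2 ⟨_, PhiLevel_incl_jE A C.i12 C.hi12 (Dvd.intro _ rfl) hdr⟩)
    (hU 0).ne_zero hordr
    (fun y hy h => by
      obtain ⟨x, rfl⟩ := RingHom.mem_fieldRange.1 hy
      exact (stmt_MidUnram all_OverAll all_UnifR A r M C).1 x h)

end Fermat.Agent.S36.Inst

end
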