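import Fermat.Agent.S36.Inst.Abs
import Fermat.Agent.S36.Val.Interface2
import Fermat.Agent.CAR.Unit.Interface2
import Fermat.Agent.S36.HM.Interface
import Fermat.Agent.S36.GeoInterface

/-!
# S36 / Inst : the concrete statements of the instantiation (architect helper45)

Context: `C : Val.Ctx A r M` (helper88), `N = r ^ 2 * M`, `a = auxLevel r ∣ M`, `t₀ ∈ FE A M` the
Hauptmodul `HM.tq a`, `t = C.i12 (C.i01 t₀)`.
-/

set_option autoImplicit false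

noncomputable section

namespace Fermat.Agent.S36.Inst

open Fermat.Agent
open Fermat.Agent.S24 (Qbar FF jF)
open Fermat.Agent.KL Fermat.Agent.S36 Fermat.Agent.S36.Reg Fermat.Agent.S36.Base
open Fermat.Agent.S36.Val Fermat.Agent.S36.Dict
open Fermat.Agent.CAR.Unit (etaLser lx1 lx2 negL scaleL lf4 lf9 W1)
open Fermat.Agent.ES.Mid (tw IsDiv)
open ModularCurve (qExpand)
open Polynomial

/-! ## 0. the modular polynomial -/

/-- **PHI-1**. the shape of `Φ_r` (`c a b` = coefficient of `X^(r+1-a) Y^(r+1-b)`). -/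
def Stmt_PhiZ : Prop :=
  ∀ r : ℕ, r.Prime → ∃ c : ℕ → ℕ → ℤ, PhiShape r c ∧ ∀ (R : Type) [CommRing R],
    (∑ a ∈ Finset.range (r + 2), ∑ b ∈ Finset.range (r + 2),
      ((c a b : ℤ) : LaurentSeries R) * S28.jd R r ^ (r + 1 - a) * S28.jd R 1 ^ (r + 1 - b) = 0) ∧
    (∑ a ∈ Finset.range (r + 2), ∑ b ∈ Finset.range (r + 2),
      ((c a b : ℤ) : LaurentSeries R) * S28.jd R 1 ^ (r + 1 - a) * S28.jd R r ^ (r + 1 - b) = 0)

/-! ## 1. context, Hauptmodul, `j` as a function of `t` -/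

/-- **INST-CTX**. -/
def Stmt_Ctx : Prop :=
  ∀ (A : ValuationSubring Qbar) (r M : ℕ) [NeZero r] [NeZero M] [NeZero (r * M)]
    [NeZero (r ^ 2 * M)], r.Prime → ¬ r ∣ M → A.LiesOverPrime r → Nonempty (Ctx A r M)

/-- `t₀` is the Hauptmodul of level `a`. -/
def IsT (A : ValuationSubring Qbar) (a : ℕ) {M : ℕ} (t₀ : FE A M) : Prop :=
  (t₀ : Base.LE A) = HM.tq a (IE A)

/-- **INST-T**. -/
def Stmt_T : Prop :=
  ∀ (A : ValuationSubring Qbar) (a M : ℕ) [NeZero M], (a = 4 ∨ a = 9) → a ∣ M →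
    ∃ t₀ : FE A M, IsT A a t₀ ∧ Transcendental (IE A) t₀

/-- numerator of `j` as a function of `s = 1 / t`. -/
def jNum2 (a : ℕ) (K : Type) [CommRing K] : K[X] :=
  if a = 4 then (1 + 256 * X + 4096 * X ^ 2) ^ 3
  else ((1 + 9 * X) * (1 + 243 * X + 2187 * X ^ 2 + 6561 * X ^ 3)) ^ 3

/-- denominator of `j` as a function of `s = 1 / t`. -/
def jDen2 (a : ℕ) (K : Type) [CommRing K] : K[X] :=
  if a = 4 then X * (1 + 16 * X) else X * (1 + 9 * X + 27 * X ^ 2)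

/-- **INST-BEZ**. Bezout relations over a ring in which `a` is invertible. -/
def Stmt_Bez : Prop :=
  ∀ (a : ℕ) (K : Type) [CommRing K], (a = 4 ∨ a = 9) → IsUnit (a : K) →
    (∃ u v : K[X], u * HM.jDenP a K + v * HM.jNumP a K = 1) ∧
    (∃ u v : K[X], u * jDen2 a K + v * jNum2 a K = 1) ∧ (jDen2 a K).coeff 0 = 0

/-- **INST-JT**. `j d(t) = e(t)` in a field containing the series (abstract form: `φ` injective ring
homomorphism to Laurent series). -/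
def Stmt_JT : Prop :=
  ∀ (a : ℕ) (A₀ K F : Type) [CommRing A₀] [Field K] [Field F] [Algebra A₀ F]
    (φ : F →+* LaurentSeries K) (j t : F), (a = 4 ∨ a = 9) → φ j = S28.jd K 1 → φ t = HM.tq a K →
    j * aeval t (HM.jDenP a A₀) = aeval t (HM.jNumP a A₀) ∧
    j * aeval t⁻¹ (jDen2 a A₀) = aeval t⁻¹ (jNum2 a A₀)

/-! ## 2. the level maps from level `M` -/

section

variable {A : ValuationSubring Qbar} {r M : ℕ} [NeZero r] [NeZero M] [NeZero (r * M)]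
  [NeZero (r ^ 2 * M)]

/-- the inclusion `FE A M → FE A (r ^ 2 * M)`. -/
def i02 (C : Ctx A r M) : FE A M →+* FE A (r ^ 2 * M) := C.i12.comp C.i01

/-- `v` is `q ↦ q ^ (r²)` from level `M` to level `r² M`, with its three expansions. -/
def IsV02 (C : Ctx A r M) (v : FE A M →+* FE A (r ^ 2 * M)) : Prop :=
  (∀ x, phiA A (r ^ 2 * M) (v x) = S28.Vq Qbar (r ^ 2) (phiA A M x)) ∧
  (∀ x, phiM A C.D (v x) = tw C.D.ζ (phiA A M x)) ∧
  (∀ x, phiC A C.W2 (v x) = phiA A M x) ∧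
  (∀ a : AE A, v (algebraMap (AE A) (FE A M) a) = algebraMap (AE A) (FE A (r ^ 2 * M)) a) ∧
  (∀ d, d ∣ M → v (jE A M d) = jE A (r ^ 2 * M) (r ^ 2 * d))

end

/-- **INST-LEV**. the three expansions of the elements of level `M`. -/
def Stmt_Lev : Prop :=
  ∀ (A : ValuationSubring Qbar) (r M : ℕ) [NeZero r] [NeZero M] [NeZero (r * M)]
    [NeZero (r ^ 2 * M)] (C : Ctx A r M),
    (∀ x, phiA A (r ^ 2 * M) (i02 C x) = phiA A M x) ∧
    (∀ x, phiM A C.D (i02 C x) = phiA A M x) ∧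
    (∀ x, phiC A C.W2 (i02 C x) = S28.Vq Qbar (r ^ 2) (phiA A M x)) ∧
    (∀ d, d ∣ M → i02 C (jE A M d) = jE A (r ^ 2 * M) d) ∧
    ∃ v, IsV02 C v

/-! ## 3. [REG] the field level facts -/

/-- **INST-FJ**. -/
def Stmt_FactsJ : Prop :=
  ∀ (A : ValuationSubring Qbar) (r M : ℕ) [NeZero r] [NeZero M] [NeZero (r * M)]
    [NeZero (r ^ 2 * M)] (C : Ctx A r M),
    ∃ J : FactsJ (AE A) (FE A (r ^ 2 * M)) r C.ord C.i12.fieldRange, J.j = jE A (r ^ 2 * M) 1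

/-- the weight one unit. -/
def lfOf (r : ℕ) : List (ℕ × ℤ) := if r = 2 then lf9 else lf4

/-- the series level table of `x₁ = f(q^r)/f(q)`, `x₂ = f(q^(r²))/f(q^r)`. -/
structure XTab {A : ValuationSubring Qbar} {r M : ℕ} [NeZero r] [NeZero M] [NeZero (r * M)]
    [NeZero (r ^ 2 * M)] (C : Ctx A r M) (lf : List (ℕ × ℤ)) where
  x1 : FE A (r ^ 2 * M)
  x2 : FE A (r ^ 2 * M)
  ε₁ : Qbar
  ε₂ : Qbar
  ε₃ : Qbar
  h₁ : ε₁ = 1 ∨ ε₁ = -1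
  h₂ : ε₂ = 1 ∨ ε₂ = -1
  h₃ : ε₃ = 1 ∨ ε₃ = -1
  A1 : phiA A (r ^ 2 * M) x1 = etaLser Qbar 0 (lx1 lf r)
  A2 : phiA A (r ^ 2 * M) x2 = etaLser Qbar 0 (lx2 lf r)
  C1 : phiC A C.W2 x1 = (ε₁ * (r : Qbar)⁻¹) • etaLser Qbar 0 (negL (lx2 lf r))
  C2 : phiC A C.W2 x2 = (ε₂ * (r : Qbar)⁻¹) • etaLser Qbar 0 (negL (lx1 lf r))
  M1 : phiM A C.D x1 = etaLser Qbar 0 (lx1 lf r)
  M2 : phiM A C.D x2 = (ε₃ * (r : Qbar)⁻¹) •
    (tw C.D.ζ (etaLser Qbar 0 lf) * etaLser Qbar 0 (negL (scaleL r lf)))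
  int1 : IsIntegral (Algebra.adjoin Qbar ({jF (r ^ 2 * M)} : Set (FF (r ^ 2 * M))))
    (emb A (r ^ 2 * M) x1)
  int1' : IsIntegral (Algebra.adjoin Qbar ({jF (r ^ 2 * M)} : Set (FF (r ^ 2 * M))))
    (emb A (r ^ 2 * M) x1)⁻¹
  int2 : IsIntegral (Algebra.adjoin Qbar ({jF (r ^ 2 * M)} : Set (FF (r ^ 2 * M))))
    (emb A (r ^ 2 * M) x2)
  int2' : IsIntegral (Algebra.adjoin Qbar ({jF (r ^ 2 * M)} : Set (FF (r ^ 2 * M))))
    (emb A (r ^ 2 * M) x2)⁻¹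

/-- **INST-XT**. existence of the table. -/
def Stmt_XTab : Prop :=
  ∀ (A : ValuationSubring Qbar) (r M : ℕ) [NeZero r] [NeZero M] [NeZero (r * M)]
    [NeZero (r ^ 2 * M)] (C : Ctx A r M) (a : ℕ) (lf : List (ℕ × ℤ)) (χ : ℤ → ℂ),
    W1 a lf χ → a ∣ M → Nonempty (XTab C lf)

/-- **INST-ID**. descent of integrality: from `ℚ̄[j]` to `A_E[1/r][j]`. -/
def Stmt_IntDesc : Prop :=
  ∀ (A : ValuationSubring Qbar) (r N : ℕ) [NeZero N], r.Prime → A.LiesOverPrime r →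
    ∀ z : FE A N, IsIntegral (Algebra.adjoin Qbar ({jF N} : Set (FF N))) (emb A N z) →
      IntJ (AE A) r (jE A N 1) z

/-- **INST-FX**. from the table to `FactsX`. -/
def Stmt_FactsX : Prop :=
  ∀ (A : ValuationSubring Qbar) (r M : ℕ) [NeZero r] [NeZero M] [NeZero (r * M)]
    [NeZero (r ^ 2 * M)] (C : Ctx A r M) (a : ℕ) (lf : List (ℕ × ℤ)) (χ : ℤ → ℂ) (T : XTab C lf),
    W1 a lf χ →
    ∃ X : FactsX (AE A) (FE A (r ^ 2 * M)) r C.ord (jE A (r ^ 2 * M) 1),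
      X.aA = (r : FE A (r ^ 2 * M)) * T.x2 ∧ X.aC = T.x1⁻¹ ∧ X.aM = T.x1 / T.x2

/-- **INST-FB**. `FactsB` for `r` odd (`a = 4`, `β = t(q^(r²)) - t(q)`). -/
def Stmt_FactsB : Prop :=
  ∀ (A : ValuationSubring Qbar) (r M : ℕ) [NeZero r] [NeZero M] [NeZero (r * M)]
    [NeZero (r ^ 2 * M)] (C : Ctx A r M) (T : XTab C lf4) (t₀ : FE A M), r ≠ 2 → 4 ∣ M →
    IsT A 4 t₀ →
    Nonempty (FactsB (AE A) (FE A (r ^ 2 * M)) r C.ord (jE A (r ^ 2 * M) 1) (T.x1 / T.x2))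

/-- **INST-FB2**. `FactsB` for `r = 2` (abstract: `β = aM`, `τ = 1`). -/
def Stmt_FactsB2 : Prop :=
  ∀ (A₀ F : Type) [CommRing A₀] [Field F] [Algebra A₀ F] (ord : Fin 3 → F → ℤ) (j : F)
    (X : FactsX A₀ F 2 ord j), Nonempty (FactsB A₀ F 2 ord j X.aM)

/-! ## 4. [LOC], (D5), links -/

/-- **the contract of [LOC]** (helper78). -/
def Stmt_LocInst : Prop :=
  ∀ (A : ValuationSubring Qbar) (r M : ℕ) [NeZero r] [NeZero M] [NeZero (r * M)]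
    [NeZero (r ^ 2 * M)] (C : Ctx A r M) (t₀ : FE A M), auxLevel r ∣ M → IsT A (auxLevel r) t₀ →
    ∀ (D₁ : Degen (AE A) (FE A (r ^ 2 * M)) (FE A (r * M)) (C.ord 0) (C.ord 1) (C.ord 2) r)
      (D₂ : Degen (AE A) (FE A (r ^ 2 * M)) (FE A (r * M)) (C.ord 2) (C.ord 1) (C.ord 0) r),
      D₁.π = C.i12 → (∀ x, D₁.N x = @Algebra.norm _ _ _ _ C.i12.toAlgebra x) →
      D₂.π = C.v12 → (∀ x, D₂.N x = @Algebra.norm _ _ _ _ C.v12.toAlgebra x) →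
      NorOut (AE A) (FE A (r ^ 2 * M)) ((r : ℕ) : AE A) (i02 C t₀) ∧
      NorOut (AE A) (FE A (r ^ 2 * M)) ((r : ℕ) : AE A) (i02 C t₀)⁻¹ ∧
      LocOut (AE A) (FE A (r ^ 2 * M)) (FE A (r * M)) ((r : ℕ) : AE A) (i02 C t₀) D₁ ∧
      LocOut (AE A) (FE A (r ^ 2 * M)) (FE A (r * M)) ((r : ℕ) : AE A) (i02 C t₀) D₂

/-- **the contract of [GRE]** for VAL (helper5). -/
def Stmt_Good : Prop :=
  ∀ (A : ValuationSubring Qbar) (r M : ℕ) [NeZero M] (t₀ : FE A M), r.Prime → ¬ r ∣ M →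
    A.LiesOverPrime r → auxLevel r ∣ M → IsT A (auxLevel r) t₀ → GoodCoord A r M t₀

/-- **INST-ROOT** (D5), abstract: the point `q = 0, ϖ = 0` of the chart with coordinate `s`,
`s ∈ q K⟦q⟧`. -/
def Stmt_RootAbs : Prop :=
  ∀ (A₀ K F : Type) [CommRing A₀] [IsDomain A₀] [IsDiscreteValuationRing A₀] [Field K] [CharZero K]
    [Algebra A₀ K] [IsFractionRing A₀ K] [Field F] [Algebra A₀ F] [Algebra F (LaurentSeries K)]
    (ϖ : A₀) (s : F) (m : ℕ), Irreducible ϖ → m ≠ 0 →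
    (∀ a : A₀, algebraMap F (LaurentSeries K) (algebraMap A₀ F a)
      = HahnSeries.C (algebraMap A₀ K a)) →
    s ≠ 0 → 0 < (algebraMap F (LaurentSeries K) s).order →
    (∀ c : A₀, IsUnit c → ∃ d : A₀, d ^ m = c) →
    RootOut A₀ F (LaurentSeries K) ϖ s m

/-- **INST-W1**. the Fricke involution restricted to `F_E`. -/
def Stmt_FrickeE : Prop :=
  ∀ (A : ValuationSubring Qbar) (N : ℕ) [NeZero N], ∃ w : FE A N ≃+* FE A N,
    (∀ c : IE A, w (algebraMap (IE A) (FE A N) c) = algebraMap (IE A) (FE A N) c) ∧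
    ∀ x, emb A N (w x) = INJ.Inst.frickeEquiv N (emb A N x)

/-- (HDIV) on the chart with coordinate `x`. -/
def HDivOut (A₀ F : Type) [CommRing A₀] [Field F] [Algebra A₀ F] (ϖ : A₀) (x : F) (m : ℕ)
    (u : F) : Prop :=
  HDiv (cst A₀ x ϖ) m u

/-- **INST-HD**. -/
def Stmt_HDivInst : Prop :=
  ∀ (A : ValuationSubring Qbar) (r N m : ℕ) [NeZero N] (t u : FE A N), r.Prime →
    A.LiesOverPrime r → Transcendental (IE A) t → IsDiv N m (emb A N u) →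
    HDivOut (AE A) (FE A N) ((r : ℕ) : AE A) t m u

/-! ## 5. the final statements -/

/-- `Stmt_Inst` at the levels `N = r² M`, `N₁ = r M`. -/
def InstAt (N N₁ r : ℕ) [NeZero N] [NeZero r] [NeZero N₁] : Prop :=
  ∀ A : ValuationSubring Qbar, A.LiesOverPrime r →
    ∀ [IsDiscreteValuationRing (AE A)] (m : ℕ), 0 < m → ¬ r ∣ m →
    ∃ Z : ZData (AE A) (FE A N) (FE A N₁) (Base.LE A), Z.m = m ∧ Z.r = r ∧
      Z.ϖ = ((r : ℕ) : AE A) ∧
      (∀ (ζ : Qbarˣ), IsPrimitiveRoot ζ r → ∀ u : FE A N,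
        cmE A ((Z.D₂.N u : FE A N₁) : Base.LE A) = formalU r ζ (cmE A (u : Base.LE A))) ∧
      (∃ w₁ : FE A N₁ ≃+* FE A N₁,
        (∀ c : IE A, w₁ (algebraMap (IE A) (FE A N₁) c) = algebraMap (IE A) (FE A N₁) c) ∧
        ∀ (ζ : Qbarˣ), IsPrimitiveRoot ζ r → ∀ u : FE A N,
          cmE A ((w₁ (Z.D₁.N u) : FE A N₁) : Base.LE A)
            = formalU r ζ ((INJ.Inst.frickeEquiv N (emb A N u) : FF N) : LaurentSeries Qbar)) ∧
      (∀ u : FE A N, IsDiv N m (emb A N u) →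
        HDiv (cst (AE A) Z.t Z.ϖ) m u ∧ HDiv (cst (AE A) Z.t⁻¹ Z.ϖ) m u)

/-- **INST-RM**. -/
def Stmt_InstRM : Prop :=
  ∀ (r M : ℕ) [NeZero r] [NeZero M] [NeZero (r * M)] [NeZero (r ^ 2 * M)], r.Prime → ¬ r ∣ M →
    auxLevel r ∣ M → InstAt (r ^ 2 * M) (r * M) r

end Fermat.Agent.S36.Inst

end
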