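import Fermat.Agent.S36.Reg.Interface2
import Fermat.Agent.S36.Loc.Interface

/-!
# S36 / Inst : the abstract constructor of `ZData` (architect helper45)

`Stmt_MkZ` : a `ZData` from (D0) base facts, (D1), (D2) the valuations and the degeneracy data [VAL],
the field level facts `FactsJ/X/B` [REG], normality of the components and `LocAt` [LOC], and (D5).

All the predicates below have the types as EXPLICIT arguments: at the concrete types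
(`AE A`, `FE A N`) never unfold them (instance search on `Chart (AE A) t` is slow).
-/

set_option autoImplicit false

namespace Fermat.Agent.S36.Inst

open Fermat.Agent.KL Fermat.Agent.S36 Fermat.Agent.S36.Reg Polynomial

/-- the minimal primes over `ϖ` of the chart with coordinate `x` are the centres of the `ord X`. -/
def CenOutB (A₀ F : Type) [CommRing A₀] [Field F] [Algebra A₀ F] (ϖ : A₀) (x : F)
    (ord : Fin 3 → F → ℤ) : Prop :=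
  CenB (cst A₀ x ϖ) ord

/-- all the components of the special fibre of the chart with coordinate `x` are normal. -/
def NorOut (A₀ F : Type) [CommRing A₀] [Field F] [Algebra A₀ F] (ϖ : A₀) (x : F) : Prop :=
  ∀ P ∈ (Ideal.span {cst A₀ x ϖ}).minimalPrimes, Loc.NorInt F P

/-- `LocAt` at the triple points of the chart with coordinate `x`. -/
def LocOut (A₀ F F₁ : Type) [CommRing A₀] [Field F] [Field F₁] [Algebra A₀ F] [Algebra A₀ F₁]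
    (ϖ : A₀) (x : F) {o₁ o₂ o₃ : F → ℤ} {r : ℕ} (D : Degen A₀ F F₁ o₁ o₂ o₃ r) : Prop :=
  ∀ 𝔫 : Ideal (Chart A₀ x), 𝔫.IsMaximal →
    (∀ P ∈ (Ideal.span {cst A₀ x ϖ}).minimalPrimes, P ≤ 𝔫) → D.LocAt 𝔫

/-- (D5). -/
def RootOut (A₀ F L : Type) [CommRing A₀] [Field F] [Algebra A₀ F] [Field L] [Algebra F L]
    (ϖ : A₀) (x : F) (m : ℕ) : Prop :=
  ∃ 𝔫 : Ideal (Chart A₀ x), 𝔫.IsMaximal ∧ cst A₀ x ϖ ∈ 𝔫 ∧ crd A₀ x ∈ 𝔫 ∧
    ∀ ε : F, UnitAt 𝔫 ε → ∃ y : L, y ^ m = algebraMap F L ε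

/-- **INST-DIM**. primes of `A₀[x]` strictly containing `ϖ A₀[x]` are maximal. -/
def Stmt_PolyDim : Prop :=
  ∀ (A₀ F : Type) [CommRing A₀] [IsDomain A₀] [IsDiscreteValuationRing A₀] [Field F]
    [Algebra A₀ F] [FaithfulSMul A₀ F] (ϖ : A₀) (x : F), Irreducible ϖ → Transcendental A₀ x →
    ∀ 𝔮 : Ideal (PolyR A₀ x), 𝔮.IsPrime → algebraMap A₀ (PolyR A₀ x) ϖ ∈ 𝔮 →
      (∃ y ∈ 𝔮, y ∉ Ideal.span {algebraMap A₀ (PolyR A₀ x) ϖ}) → 𝔮.IsMaximal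

/-- **INST-MKZ**. -/
def Stmt_MkZ : Prop :=
  ∀ (A₀ F F₁ L : Type) [CommRing A₀] [IsDomain A₀] [IsDiscreteValuationRing A₀]
    [Field F] [CharZero F] [Algebra A₀ F] [FaithfulSMul A₀ F] [Field F₁] [Algebra A₀ F₁]
    [Field L] [Algebra F L] [Algebra A₀ L] [IsScalarTower A₀ F L]
    (t : F) (m r : ℕ) (ζ : A₀) (ord : Fin 3 → F → ℤ) (pM pC : F)
    (D₁ : Degen A₀ F F₁ (ord 0) (ord 1) (ord 2) r) (D₂ : Degen A₀ F F₁ (ord 2) (ord 1) (ord 0) r)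
    (F1 : Subfield F) (J : FactsJ A₀ F r ord F1) (X : FactsX A₀ F r ord J.j)
    (_Y : FactsB A₀ F r ord J.j X.aM) (d e u v d' e' u' v' : A₀[X]),
    -- (D0)
    Irreducible ((r : ℕ) : A₀) → Transcendental A₀ t → FinOverR (PolyR A₀ t) F →
    (∀ c : L, IsIntegral A₀ c → c ∈ (algebraMap A₀ L).range) → IsUnit (m : A₀) →
    IsPrimitiveRoot ζ m → (∀ c : A₀, IsUnit c → ∃ d : A₀, d ^ m = c) → 2 ≤ r → Nat.Coprime r m →
    -- (D1)
    OrdMul ord → OrdIs ord (r : F) 1 ((r : ℤ) - 1) 1 → OrdIs ord pM 0 1 0 → OrdIs ord pC 0 0 1 →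
    CenOutB A₀ F ((r : ℕ) : A₀) t ord → CenOutB A₀ F ((r : ℕ) : A₀) t⁻¹ ord →
    -- `j` as a function of `t` and of `t⁻¹`
    u * d + v * e = 1 → J.j * aeval t d = aeval t e →
    u' * d' + v' * e' = 1 → J.j * aeval t⁻¹ d' = aeval t⁻¹ e' → d'.coeff 0 = 0 →
    -- [LOC]
    NorOut A₀ F ((r : ℕ) : A₀) t → NorOut A₀ F ((r : ℕ) : A₀) t⁻¹ →
    LocOut A₀ F F₁ ((r : ℕ) : A₀) t D₁ → LocOut A₀ F F₁ ((r : ℕ) : A₀) t D₂ →
    -- (D5)
    RootOut A₀ F L ((r : ℕ) : A₀) t⁻¹ m →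
    ∃ Z : ZData A₀ F F₁ L, Z.ϖ = ((r : ℕ) : A₀) ∧ Z.t = t ∧ Z.m = m ∧ Z.r = r ∧
      (∀ x, Z.D₁.N x = D₁.N x) ∧ (∀ x, Z.D₂.N x = D₂.N x)

end Fermat.Agent.S36.Inst
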