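import Fermat.Agent.S36.Inst.Concrete

/-!
# S36 / Inst, task INST-BEZ+JT (helper40; architect helper45)

* `bez : Stmt_Bez` : Bezout relations between the numerator and the denominator of `j = e(t)/d(t)`,
  in both charts (`t` and `s = 1/t`), over a commutative ring in which `a ∈ {4, 9}` is invertible.
* `jt : Stmt_JT` : `j d(t) = e(t)` and `j d₂(1/t) = e₂(1/t)` in a field embedded in the series.
-/

set_option autoImplicit false

noncomputable section

namespace Fermat.Agent.S36.Inst

open Fermat.Agent
open Polynomial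

section Bez

variable {K : Type} [CommRing K]

theorem BezJT_bezout {P Q a b : K[X]} (c : K) (hc : IsUnit c) (h : a * P + b * Q = C c) :
    IsCoprime P Q := by
  obtain ⟨u, rfl⟩ := hc
  refine ⟨C ((u⁻¹ : Kˣ) : K) * a, C ((u⁻¹ : Kˣ) : K) * b, ?_⟩
  have : C ((u⁻¹ : Kˣ) : K) * a * P + C ((u⁻¹ : Kˣ) : K) * b * Q
      = C ((u⁻¹ : Kˣ) : K) * (a * P + b * Q) := by ring
  rw [this, h, ← C_mul, Units.inv_mul, C_1]

theorem BezJT_one {P Q a b : K[X]} (h : a * P + b * Q = 1) : IsCoprime P Q := ⟨a, b, h⟩

theorem BezJT_coprime4 (h4 : IsUnit (4 : K)) : IsCoprime (HM.jNumP 4 K) (HM.jDenP 4 K) := by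
  have u4096 : IsUnit (4096 : K) := by
    have := h4.pow 6
    norm_num at this
    exact this
  have u256 : IsUnit (256 : K) := by
    have := h4.pow 4
    norm_num at this
    exact this
  simp only [HM.jNumP, HM.jDenP, if_true]
  apply IsCoprime.pow_left
  apply IsCoprime.mul_right
  · apply IsCoprime.pow_right
    refine BezJT_bezout (a := 1) (b := -(X + 256)) 4096 u4096 ?_
    rw [map_ofNat]; ring
  · refine BezJT_bezout (a := 1) (b := -(X + 240)) 256 u256 ?_
    rw [map_ofNat]; ring

theorem BezJT_coprime9 (h9 : IsUnit (9 : K)) : IsCoprime (HM.jNumP 9 K) (HM.jDenP 9 K) := by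
  have u3 : IsUnit (3 : K) := by
    have : (9 : K) = 3 * 3 := by norm_num
    rw [this] at h9
    exact isUnit_of_mul_isUnit_left h9
  have u27 : IsUnit (27 : K) := by
    have := u3.pow 3
    norm_num at this
    exact this
  have u6561 : IsUnit (6561 : K) := by
    have := h9.pow 4
    norm_num at this
    exact this
  have u729 : IsUnit (729 : K) := by
    have := h9.pow 3
    norm_num at this
    exact this
  simp only [HM.jNumP, HM.jDenP, show (9 : ℕ) ≠ 4 by norm_num, if_false]
  apply IsCoprime.pow_left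
  apply IsCoprime.mul_left
  · apply IsCoprime.mul_right
    · apply IsCoprime.pow_right
      refine BezJT_bezout (a := 1) (b := -1) 9 h9 ?_
      rw [map_ofNat]; ring
    · refine BezJT_bezout (a := -X) (b := 1) 27 u27 ?_
      rw [map_ofNat]; ring
  · apply IsCoprime.mul_right
    · apply IsCoprime.pow_right
      refine BezJT_bezout (a := 1) (b := -(X ^ 2 + 243 * X + 2187)) 6561 u6561 ?_
      rw [map_ofNat]; ring
    · refine BezJT_bezout (a := -(2 * X + 9)) (b := 108 + (2 * X + 9) * (X + 234)) 729 u729 ?_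
      rw [map_ofNat]; ring

variable (K)

theorem BezJT_coprime4' : IsCoprime (jNum2 4 K) (jDen2 4 K) := by
  simp only [jNum2, jDen2, if_true]
  apply IsCoprime.pow_left
  apply IsCoprime.mul_right
  · refine BezJT_one (a := 1) (b := -(256 + 4096 * X)) ?_
    ring
  · refine BezJT_one (a := 1) (b := -(256 * X)) ?_
    ring

theorem BezJT_coprime9' : IsCoprime (jNum2 9 K) (jDen2 9 K) := by
  simp only [jNum2, jDen2, show (9 : ℕ) ≠ 4 by norm_num, if_false]
  apply IsCoprime.pow_left
  apply IsCoprime.mul_left
  · apply IsCoprime.mul_right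
    · refine BezJT_one (a := 1) (b := -9) ?_
      ring
    · refine BezJT_one (a := -2 - 9 * X) (b := 3) ?_
      ring
  · apply IsCoprime.mul_right
    · refine BezJT_one (a := 1) (b := -(243 + 2187 * X + 6561 * X ^ 2)) ?_
      ring
    · refine BezJT_one (a := 1) (b := -(243 * X)) ?_
      ring

theorem BezJT_coeff_zero (a : ℕ) : (jDen2 a K).coeff 0 = 0 := by
  unfold jDen2
  split_ifs <;> rw [mul_coeff_zero, coeff_X_zero, zero_mul]

end Bez

/-- **INST-BEZ**. -/
theorem bez : Stmt_Bez := by
  intro a K _ ha hu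
  rcases ha with rfl | rfl
  · exact ⟨(BezJT_coprime4 (by exact_mod_cast hu)).symm, (BezJT_coprime4' K).symm,
      BezJT_coeff_zero K 4⟩
  · exact ⟨(BezJT_coprime9 (by exact_mod_cast hu)).symm, (BezJT_coprime9' K).symm,
      BezJT_coeff_zero K 9⟩

/-- **INST-JT**. -/
theorem jt : Stmt_JT := by
  intro a A₀ K F _ _ _ _ φ j t ha hj ht
  have ht0 : t ≠ 0 := by
    rintro rfl
    rw [map_zero] at ht
    have := HM.coeff_tq_neg_one K a
    rw [← ht] at this
    simp at this
  rcases ha with rfl | rfl
  · have h1 : j * (t ^ 4 * (t + 16)) = (t ^ 2 + 256 * t + 4096) ^ 3 := by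
      apply φ.injective
      simp only [map_mul, map_pow, map_add, map_ofNat, hj, ht]
      simp only [HM.tq, if_true]
      exact HM.r4_j1 K
    constructor
    · simp only [HM.jDenP, HM.jNumP, if_true, map_mul, map_pow, map_add, aeval_X, map_ofNat]
      exact h1
    · simp only [jDen2, jNum2, if_true, map_mul, map_pow, map_add, aeval_X, map_ofNat, map_one]
      field_simp
      linear_combination h1
  · have h1 : j * (t ^ 9 * (t ^ 2 + 9 * t + 27))
        = ((t + 9) * (t ^ 3 + 243 * t ^ 2 + 2187 * t + 6561)) ^ 3 := by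
      apply φ.injective
      simp only [map_mul, map_pow, map_add, map_ofNat, hj, ht]
      simp only [HM.tq, show (9 : ℕ) ≠ 4 by norm_num, if_false]
      exact HM.r9_j1 K
    constructor
    · simp only [HM.jDenP, HM.jNumP, show (9 : ℕ) ≠ 4 by norm_num, if_false, map_mul, map_pow,
        map_add, aeval_X, map_ofNat]
      exact h1
    · simp only [jDen2, jNum2, show (9 : ℕ) ≠ 4 by norm_num, if_false, map_mul, map_pow,
        map_add, aeval_X, map_ofNat, map_one]
      field_simp
      linear_combination h1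

end Fermat.Agent.S36.Inst

end
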