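import Fermat.Agent.S36.Inst.Concrete

/-!
# S36 / Inst : `Stmt_InstRM ⟹ Stmt_Inst` (`N = r² M`, `N / r = r M`)
-/

set_option autoImplicit false

namespace Fermat.Agent.S36.Inst

open Fermat.Agent
open Fermat.Agent.S36 Fermat.Agent.S36.Dict

/-- transport of `InstAt` along equalities of levels. -/
theorem Cast_instAt (r : ℕ) [NeZero r] (N N' N₁ N₁' : ℕ) (i : NeZero N) (i' : NeZero N')
    (i₁ : NeZero N₁) (i₁' : NeZero N₁') (h : N = N') (h₁ : N₁ = N₁')
    (H : @InstAt N' N₁' r i' _ i₁') : @InstAt N N₁ r i _ i₁ := by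
  subst h
  subst h₁
  have e : i = i' := Subsingleton.elim _ _
  have e₁ : i₁ = i₁' := Subsingleton.elim _ _
  subst e
  subst e₁
  exact H

theorem inst_of (h : Stmt_InstRM) : Stmt_Inst := by
  intro N r iN ir iNr hr hfac haux
  have hN0 : N ≠ 0 := NeZero.ne N
  obtain ⟨e, M, hM, hNM⟩ := Nat.exists_eq_pow_mul_and_not_dvd hN0 r hr.ne_one
  have hM0 : M ≠ 0 := by
    rintro rfl
    exact hM (dvd_zero r)
  have he : e = 2 := by
    have h1 : N.factorization r = e := by
      rw [hNM, Nat.factorization_mul (pow_ne_zero _ hr.ne_zero) hM0, Finsupp.add_apply,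
        Nat.factorization_eq_zero_of_not_dvd hM, add_zero, hr.factorization_pow,
        Finsupp.single_eq_same]
    omega
  subst he
  have hNr : N / r = r * M := by
    rw [hNM, pow_two, mul_assoc, Nat.mul_div_cancel_left _ hr.pos]
  have hcop : Nat.Coprime (auxLevel r) r := by
    unfold auxLevel
    split_ifs with h2
    · subst h2; decide
    · have : Nat.Coprime 2 r := (Nat.coprime_primes Nat.prime_two hr).2 (Ne.symm h2)
      exact Nat.Coprime.pow_left 2 this
  have hauxM : auxLevel r ∣ M := by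
    rw [hNM] at haux
    exact (Nat.Coprime.pow_right 2 hcop).dvd_of_dvd_mul_left haux
  have iM : NeZero M := ⟨hM0⟩
  have irM : NeZero (r * M) := ⟨mul_ne_zero hr.ne_zero hM0⟩
  have ir2M : NeZero (r ^ 2 * M) := ⟨mul_ne_zero (pow_ne_zero _ hr.ne_zero) hM0⟩
  exact Cast_instAt r N (r ^ 2 * M) (N / r) (r * M) iN ir2M iNr irM hNM hNr (h r M hr hM hauxM)

end Fermat.Agent.S36.Inst
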