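import Fermat.Agent.S36.Inst.Concrete
import Fermat.Agent.S36.HM.Mem

/-!
# S36 / Inst, task INST-CTX+T (helper77): existence of the context and of the Hauptmodul
-/

set_option autoImplicit false

noncomputable section

namespace Fermat.Agent.S36.Inst

open Fermat.Agent
open Fermat.Agent.S24 (Qbar FF jF)
open Fermat.Agent.S36.Base Fermat.Agent.S36.Val

theorem ctx (h1 : Val.Stmt_AL) (h2 : Val.Stmt_Mid) (h3 : Val.Stmt_MidSat)
    (h4 : Val.Stmt_LevelMaps) : Stmt_Ctx := by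
  intro A r M _ _ _ _ hr hrM hA
  have hcop : Nat.Coprime r M := (Nat.Prime.coprime_iff_not_dvd hr).2 hrM
  obtain ⟨W1⟩ := (h1 r M hcop).2
  obtain ⟨W2⟩ := (h1 (r ^ 2) M (Nat.Coprime.pow_left 2 hcop)).2
  obtain ⟨D⟩ := h2 r M hr hrM
  obtain ⟨i01, hi01⟩ := (h4 A M (r * M)).1 (Dvd.intro_left r rfl)
  obtain ⟨i12, hi12⟩ := (h4 A (r * M) (r ^ 2 * M)).1 ⟨r, by ring⟩
  obtain ⟨v12, hv12⟩ := (h4 A (r * M) (r ^ 2 * M)).2 r ⟨1, by ring⟩
  exact ⟨⟨hr, hrM, hA, W1, W2, D, h3 A r M hr hrM D, i01, i12, v12, hi01, hi12, hv12⟩⟩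

theorem CtxT_tq_mem_FE (A : ValuationSubring Qbar) {a M : ℕ} [NeZero M] (ha : a = 4 ∨ a = 9)
    (haM : a ∣ M) : HM.tq a (IE A) ∈ FE A M := by
  have h : HM.tq a ℚ ∈ ModularCurve.modularFunctionFieldFull M :=
    HM.tq_mem_full ℚ ha (by rcases ha with rfl | rfl <;> norm_num) haM
  have h2 := ModularCurve.coeffEmb_mem_laurentBaseChange (IE A) h
  rwa [ModularCurve.coeffEmb, HM.coeffMap_tq] at h2

theorem stmtT : Stmt_T := by
  intro A a M _ ha haM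
  refine ⟨⟨HM.tq a (IE A), CtxT_tq_mem_FE A ha haM⟩, rfl, ?_⟩
  intro halg
  exact HM.transcendental_tq (IE A) a (halg.algHom (FE A M).val)

end Fermat.Agent.S36.Inst

end
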