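import Fermat.Agent.S36.Inst.Abs
import Fermat.Agent.KL.PolyRing
import Fermat.Agent.KL.PolyRing4

/-!
# S36 / Inst : INST-MKZ, the abstract constructor of `ZData`
-/

set_option autoImplicit false

namespace Fermat.Agent.S36.Inst

open Fermat.Agent.KL Fermat.Agent.S36 Fermat.Agent.S36.Reg Polynomial

/-- everything on one chart with coordinate `x`. -/
theorem MkZ_chart (h1 : Reg.Stmt_RegChart) (h2 : Reg.Stmt_Ded) (h3 : Loc.Stmt_NorIC)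
    (h4 : Loc.Stmt_NorAt) (h5 : Stmt_PolyDim)
    (A₀ F : Type) [CommRing A₀] [IsDomain A₀] [IsDiscreteValuationRing A₀]
    [Field F] [CharZero F] [Algebra A₀ F] [FaithfulSMul A₀ F]
    (x : F) (m r : ℕ) (ord : Fin 3 → F → ℤ)
    (F1 : Subfield F) (J : FactsJ A₀ F r ord F1) (X : FactsX A₀ F r ord J.j)
    (Y : FactsB A₀ F r ord J.j X.aM) (d e u v : A₀[X])
    (hirr : Irreducible ((r : ℕ) : A₀)) (hx : Transcendental A₀ x)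
    (hfin : FinOverR (PolyR A₀ x) F)
    (hm : 0 < m) (hr : 2 ≤ r) (hmul : OrdMul ord) (hordr : OrdIs ord (r : F) 1 ((r : ℤ) - 1) 1)
    (hcen : CenOutB A₀ F ((r : ℕ) : A₀) x ord)
    (hbez : u * d + v * e = 1) (hj : J.j * aeval x d = aeval x e)
    (hnor : NorOut A₀ F ((r : ℕ) : A₀) x)
    (𝔫 : Ideal (Chart A₀ x)) (h𝔫 : 𝔫.IsMaximal) (hmem : cst A₀ x ((r : ℕ) : A₀) ∈ 𝔫) :
    RegAt 𝔫 ∧
    (∀ P ∈ (Ideal.span {cst A₀ x ((r : ℕ) : A₀)}).minimalPrimes, P ≤ 𝔫 →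
      NorAt (F := F) m 𝔫 P) ∧
    (LocIrred (cst A₀ x ((r : ℕ) : A₀)) 𝔫 ∨
      ∀ P ∈ (Ideal.span {cst A₀ x ((r : ℕ) : A₀)}).minimalPrimes, P ≤ 𝔫) ∧
    (PosAt 𝔫 (aeval x d) → LocIrred (cst A₀ x ((r : ℕ) : A₀)) 𝔫) := by
  obtain ⟨hpv, -, -⟩ := stmt_polyRConcrete A₀ F x hx
  obtain ⟨-, hn, hd, hic, hfr, -, hint⟩ :=
    stmt_chartBasic A₀ (PolyR A₀ x) F (Chart A₀ x) (polyX A₀ x) hpv hfin
  have hr0 : (r : F) ≠ 0 := by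
    have : r ≠ 0 := by omega
    exact_mod_cast this
  have hmap : algebraMap (Chart A₀ x) F (cst A₀ x ((r : ℕ) : A₀)) = (r : F) := by
    have : algebraMap (Chart A₀ x) F (cst A₀ x ((r : ℕ) : A₀)) = algebraMap A₀ F ((r : ℕ) : A₀) := rfl
    rw [this, map_natCast]
  obtain ⟨k1, k2, k3⟩ := h1 A₀ (Chart A₀ x) F r ord F1 J X Y (cst A₀ x ((r : ℕ) : A₀)) x d e u v hr
    hr0 hmap (fun a => ⟨cst A₀ x a, rfl⟩) ⟨crd A₀ x, rfl⟩ hmul hcen hordr hbez hj 𝔫 h𝔫 hmem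
  have h𝔫p : 𝔫.IsPrime := h𝔫.isPrime
  refine ⟨?_, ?_, k1, k3⟩
  · obtain ⟨P, hP, hPle⟩ := Ideal.exists_minimalPrimes_le
      (I := Ideal.span {cst A₀ x ((r : ℕ) : A₀)}) (J := 𝔫)
      ((Ideal.span_singleton_le_iff_mem _).2 hmem)
    have hPp : P.IsPrime := hP.1.1
    have hϖP : cst A₀ x ((r : ℕ) : A₀) ∈ P := (Ideal.span_singleton_le_iff_mem _).1 hP.1.2
    have hcl : IsIntegrallyClosed (Chart A₀ x ⧸ P) := (h3 (Chart A₀ x) F P).1 (hnor P hP)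
    have hcomp := (h2 (PolyR A₀ x) (Chart A₀ x) F P hcl (by
      intro 𝔮 h𝔮 hlt
      obtain ⟨hle, y, hy𝔮, hyP⟩ := SetLike.lt_iff_le_and_exists.1 hlt
      have hϖu : algebraMap A₀ (PolyR A₀ x) ((r : ℕ) : A₀) ∈ P.under (PolyR A₀ x) := hϖP
      refine h5 A₀ F ((r : ℕ) : A₀) x hirr hx 𝔮 h𝔮 (hle hϖu) ⟨y, hy𝔮, fun hy => hyP ?_⟩
      exact ((Ideal.span_singleton_le_iff_mem _).2 hϖu) hy) 𝔫 h𝔫 hPle).1
    exact Reg.regAt_of hPle (k2 P hP hPle) hcomp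
  · intro P hP hPle
    exact h4 (Chart A₀ x) F 𝔫 P m h𝔫p hP.1.1 hPle hm (hnor P hP)

/-- polynomials in `x` lie in the chart. -/
theorem MkZ_aeval_mem (A₀ F : Type) [CommRing A₀] [Field F] [Algebra A₀ F] (x : F) (q : A₀[X]) :
    ∃ b : Chart A₀ x, algebraMap (Chart A₀ x) F b = aeval x q := by
  refine ⟨algebraMap (PolyR A₀ x) (Chart A₀ x) (aeval (polyX A₀ x) q), ?_⟩
  have h : algebraMap (Chart A₀ x) F (algebraMap (PolyR A₀ x) (Chart A₀ x) (aeval (polyX A₀ x) q))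
      = ((aeval (polyX A₀ x) q : PolyR A₀ x) : F) := rfl
  rw [h, ← Subalgebra.aeval_coe]
  rfl

/-- **INST-MKZ**. -/
theorem mkZ (h1 : Reg.Stmt_RegChart) (h2 : Reg.Stmt_Ded) (h3 : Loc.Stmt_NorIC)
    (h4 : Loc.Stmt_NorAt) (h5 : Stmt_PolyDim) : Stmt_MkZ := by
  intro A₀ F F₁ L _ _ _ _ _ _ _ _ _ _ _ _ _ t m r ζ ord pM pC D₁ D₂ F1 J X Y d e u v d' e' u' v'
    hirr ht hfin hL hm hζ hroot hr hrm hmul hordr hpM hpC hcen₁ hcen₂ hbez hj hbez' hj' hd0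
    hnor₁ hnor₂ hloc₁ hloc₂ hrt
  obtain ⟨-, ht₂, hfin₂'⟩ := stmt_polyRConcrete A₀ F t ht
  have hfin₂ := hfin₂' hfin
  have hm0 : 0 < m := by
    rcases Nat.eq_zero_or_pos m with h | h
    · subst h
      simp at hm
    · exact h
  have c1 := MkZ_chart h1 h2 h3 h4 h5 A₀ F t m r ord F1 J X Y d e u v hirr ht hfin hm0 hr hmul
    hordr hcen₁ hbez hj hnor₁
  have c2 := MkZ_chart h1 h2 h3 h4 h5 A₀ F t⁻¹ m r ord F1 J X Y d' e' u' v' hirr ht₂ hfin₂ hm0 hr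
    hmul hordr hcen₂ hbez' hj' hnor₂
  have hpos : ∀ 𝔫 : Ideal (Chart A₀ t⁻¹), 𝔫.IsMaximal → crd A₀ t⁻¹ ∈ 𝔫 →
      PosAt 𝔫 (aeval t⁻¹ d') := by
    intro 𝔫 h𝔫 hcrd
    have h𝔫p : 𝔫.IsPrime := h𝔫.isPrime
    have hd' : d' = Polynomial.X * d'.divX := by
      have := Polynomial.divX_mul_X_add d'
      rw [hd0, map_zero, add_zero] at this
      rw [mul_comm]
      exact this.symm
    obtain ⟨b, hb⟩ := MkZ_aeval_mem A₀ F t⁻¹ d'.divX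
    have h1' : aeval t⁻¹ d' = algebraMap (Chart A₀ t⁻¹) F (crd A₀ t⁻¹ * b) := by
      rw [map_mul, hb]
      conv_lhs => rw [hd']
      rw [map_mul, aeval_X]
      rfl
    rw [h1']
    exact posAt_algebraMap (Ideal.mul_mem_right _ _ hcrd)
  have hcast : algebraMap A₀ F ((r : ℕ) : A₀) = (r : F) := map_natCast _ _
  refine ⟨{ ϖ := ((r : ℕ) : A₀), t := t, m := m, r := r, ζ := ζ, hϖ := hirr, ht := ht, hfin := hfin,
            hL := hL, hm := hm, hζ := hζ, hroot := hroot, hr := hr, hrm := hrm, ord := ord,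
            ord_mul := hmul, ord_ϖ := by rw [hcast]; exact hordr.2,
            pM := pM, pC := pC, pM_ne := hpM.1, pC_ne := hpC.1, ord_pM := hpM.2, ord_pC := hpC.2,
            cen₁ := hcen₁.1, cen₁' := hcen₁.2, cen₂ := hcen₂.1, D₁ := D₁, D₂ := D₂,
            reg₁ := fun 𝔫 h𝔫 hmem => (c1 𝔫 h𝔫 hmem).1,
            nor₁ := fun 𝔫 h𝔫 hmem => (c1 𝔫 h𝔫 hmem).2.1,
            tri₁ := fun 𝔫 h𝔫 hmem => (c1 𝔫 h𝔫 hmem).2.2.1.imp id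
              (fun h => ⟨h, hloc₁ 𝔫 h𝔫 h, hloc₂ 𝔫 h𝔫 h⟩),
            reg₂ := fun 𝔫 h𝔫 hmem _ => (c2 𝔫 h𝔫 hmem).1,
            nor₂ := fun 𝔫 h𝔫 hmem _ => (c2 𝔫 h𝔫 hmem).2.1,
            tri₂ := fun 𝔫 h𝔫 hmem hcrd => (c2 𝔫 h𝔫 hmem).2.2.2 (hpos 𝔫 h𝔫 hcrd),
            root := hrt }, rfl, rfl, rfl, rfl, fun _ => rfl, fun _ => rfl⟩

end Fermat.Agent.S36.Inst
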