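/-
TEAM S36, task INST-DIM (helper26): primes of `A₀[x]` strictly above `(ϖ)` are maximal.
-/
import Fermat.Agent.S36.Inst.Abs
import Fermat.Agent.KL.PolyRing

set_option autoImplicit false

namespace Fermat.Agent.S36.Inst

open Fermat.Agent.KL Fermat.Agent.S36 Polynomial

/-- A prime containing the kernel of a surjection onto a PID, but not equal to it, is maximal. -/
theorem polyDim_of_surj {P K : Type} [CommRing P] [CommRing K] [IsDomain K]
    [IsPrincipalIdealRing K] (ψ : P →+* K) (hψ : Function.Surjective ψ) (𝔮 : Ideal P)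
    (h𝔮 : 𝔮.IsPrime) (hker : RingHom.ker ψ ≤ 𝔮) (hy : ∃ y ∈ 𝔮, ψ y ≠ 0) : 𝔮.IsMaximal := by
  have hprime : (𝔮.map ψ).IsPrime := Ideal.map_isPrime_of_surjective hψ hker
  have hne : 𝔮.map ψ ≠ ⊥ := by
    obtain ⟨y, hy𝔮, hy0⟩ := hy
    intro hbot
    have : ψ y ∈ 𝔮.map ψ := Ideal.mem_map_of_mem ψ hy𝔮
    rw [hbot] at this
    exact hy0 ((Ideal.mem_bot).mp this)
  have hmax : (𝔮.map ψ).IsMaximal := IsPrime.to_maximal_ideal hne
  have hcomap : (𝔮.map ψ).comap ψ = 𝔮 := by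
    rw [Ideal.comap_map_of_surjective ψ hψ]
    refine sup_eq_left.mpr ?_
    exact hker
  rw [← hcomap]
  exact Ideal.comap_isMaximal_of_surjective ψ hψ

/-- The abstract form, for a polynomial ring `P` over `A₀` in the variable `X₀`. -/
theorem polyDim_abs (A₀ P : Type) [CommRing A₀] [IsDomain A₀] [IsDiscreteValuationRing A₀]
    [CommRing P] [Algebra A₀ P] (X₀ : P) (hX : IsPolyVar A₀ X₀) (ϖ : A₀) (hϖ : Irreducible ϖ)
    (𝔮 : Ideal P) (h𝔮 : 𝔮.IsPrime) (h1 : algebraMap A₀ P ϖ ∈ 𝔮)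
    (h2 : ∃ y ∈ 𝔮, y ∉ Ideal.span {algebraMap A₀ P ϖ}) : 𝔮.IsMaximal := by
  have hmax : (Ideal.span {ϖ} : Ideal A₀).IsMaximal := by
    rw [← hϖ.maximalIdeal_eq]
    infer_instance
  letI : Field (A₀ ⧸ (Ideal.span {ϖ} : Ideal A₀)) := Ideal.Quotient.field _
  let e : A₀[X] ≃ₐ[A₀] P := AlgEquiv.ofBijective (Polynomial.aeval X₀) hX
  let φ : A₀[X] →+* (A₀ ⧸ (Ideal.span {ϖ} : Ideal A₀))[X] :=
    Polynomial.mapRingHom (Ideal.Quotient.mk (Ideal.span {ϖ}))
  have hφ : Function.Surjective φ := Polynomial.map_surjective _ Ideal.Quotient.mk_surjective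
  have hkerφ : ∀ p : A₀[X], φ p = 0 → ∃ r : A₀[X], p = C ϖ * r := by
    intro p hp
    have hc : ∀ n, ϖ ∣ p.coeff n := by
      intro n
      have := congrArg (fun f => Polynomial.coeff f n) hp
      simp only [φ, Polynomial.coe_mapRingHom, Polynomial.coeff_map, Polynomial.coeff_zero] at this
      exact Ideal.mem_span_singleton.mp (Ideal.Quotient.eq_zero_iff_mem.mp this)
    exact (Polynomial.C_dvd_iff_dvd_coeff ϖ p).mpr hc
  let ψ : P →+* (A₀ ⧸ (Ideal.span {ϖ} : Ideal A₀))[X] := φ.comp (e.symm : P →+* A₀[X])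
  have hψ : Function.Surjective ψ := hφ.comp e.symm.surjective
  have hkerψ : ∀ z : P, ψ z = 0 → z ∈ Ideal.span {algebraMap A₀ P ϖ} := by
    intro z hz
    obtain ⟨r, hr⟩ := hkerφ (e.symm z) hz
    have : z = algebraMap A₀ P ϖ * e r := by
      have h3 := congrArg e hr
      rw [AlgEquiv.apply_symm_apply, map_mul] at h3
      rw [h3]
      congr 1
      exact e.commutes ϖ
    rw [this]
    exact Ideal.mul_mem_right _ _ (Ideal.mem_span_singleton_self _)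
  refine polyDim_of_surj ψ hψ 𝔮 h𝔮 ?_ ?_
  · intro z hz
    have := hkerψ z hz
    exact (Ideal.span_singleton_le_iff_mem 𝔮).mpr h1 this
  · obtain ⟨y, hy, hy'⟩ := h2
    exact ⟨y, hy, fun h0 => hy' (hkerψ y h0)⟩

theorem polyDim : Stmt_PolyDim := by
  intro A₀ F _ _ _ _ _ _ ϖ x hϖ hx 𝔮 h𝔮 h1 h2
  exact polyDim_abs A₀ (PolyR A₀ x) (polyX A₀ x) (stmt_polyRConcrete A₀ F x hx).1 ϖ hϖ 𝔮 h𝔮 h1 h2

end Fermat.Agent.S36.Inst
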