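import Fermat.Agent.S36.Inst.Concrete

/-!
# S36 / Inst / INST-ROOT (D5) : the point `q = 0, ϖ = 0` of the chart with coordinate `s ∈ q K⟦q⟧`;
local units are `m`-th powers in `K((q))`
-/

set_option autoImplicit false

noncomputable section

namespace Fermat.Agent.S36.Inst

open Fermat.Agent
open Fermat.Agent.KL Fermat.Agent.S36
open Polynomial

/-! ### general lemmas -/

/-- lifting a ring homomorphism through an injective one. -/
theorem Root_lift {R S T : Type*} [CommRing R] [CommRing S] [CommRing T] (g : S →+* T)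
    (hg : Function.Injective g) (j : R →+* T) (h : ∀ r, ∃ s, g s = j r) :
    ∃ w : R →+* S, ∀ r, g (w r) = j r := by
  choose f hf using h
  refine ⟨{ toFun := f, map_one' := ?_, map_mul' := ?_, map_zero' := ?_, map_add' := ?_ }, hf⟩
  · apply hg; rw [hf, map_one, map_one]
  · intro a b; apply hg; rw [hf, map_mul, map_mul, hf, hf]
  · apply hg; rw [hf, map_zero, map_zero]
  · intro a b; apply hg; rw [hf, map_add, map_add, hf, hf]

/-- for integrality only the image of the base ring matters. -/
theorem Root_isIntegralElem_of_range {R R' S : Type*} [CommRing R] [CommRing R'] [CommRing S]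
    (f : R →+* S) (g : R' →+* S) (h : ∀ r', ∃ r, f r = g r') {y : S}
    (hy : g.IsIntegralElem y) : f.IsIntegralElem y := by
  obtain ⟨p, hp, hpy⟩ := hy
  have hl : p.map g ∈ Polynomial.lifts f := by
    rw [Polynomial.lifts_iff_coeff_lifts]
    intro n
    rw [coeff_map]
    obtain ⟨r, hr⟩ := h (p.coeff n)
    exact ⟨r, hr⟩
  obtain ⟨q, hq, -, hqm⟩ := Polynomial.lifts_and_natDegree_eq_and_monic hl (hp.map g)
  refine ⟨q, hqm, ?_⟩
  rw [← eval_map, hq, eval_map]
  exact hpy

theorem Root_isIntegralElem_map {R S T : Type*} [CommRing R] [CommRing S] [CommRing T]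
    (f : R →+* S) (φ : S →+* T) {y : S} (hy : f.IsIntegralElem y) :
    (φ.comp f).IsIntegralElem (φ y) := by
  obtain ⟨p, hp, hpy⟩ := hy
  exact ⟨p, hp, by rw [← hom_eval₂, hpy, map_zero]⟩

section Series

variable {K : Type} [Field K]

/-- a Laurent series of nonnegative order is a power series. -/
theorem Root_exists_powerSeries (z : LaurentSeries K) (hz : 0 ≤ z.order) :
    ∃ w : PowerSeries K, algebraMap (PowerSeries K) (LaurentSeries K) w = z := by
  obtain ⟨n, hn⟩ := Int.eq_ofNat_of_zero_le hz
  exact ⟨PowerSeries.X ^ n * z.powerSeriesPart, LaurentSeries.X_order_mul_powerSeriesPart hn.symm⟩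

theorem Root_coeff_zero (w : PowerSeries K) :
    (algebraMap (PowerSeries K) (LaurentSeries K) w).coeff 0 = PowerSeries.constantCoeff w := by
  have := LaurentSeries.coeff_coe_powerSeries w 0
  rw [Nat.cast_zero, PowerSeries.coeff_zero_eq_constantCoeff_apply] at this
  exact this

theorem Root_order_leadingCoeff (w : PowerSeries K) (hw : PowerSeries.constantCoeff w ≠ 0) :
    algebraMap (PowerSeries K) (LaurentSeries K) w ≠ 0 ∧
    (algebraMap (PowerSeries K) (LaurentSeries K) w).order = 0 ∧
      (algebraMap (PowerSeries K) (LaurentSeries K) w).leadingCoeff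
        = PowerSeries.constantCoeff w := by
  have h0 : (algebraMap (PowerSeries K) (LaurentSeries K) w).coeff 0 ≠ 0 := by
    rwa [Root_coeff_zero]
  have hne : algebraMap (PowerSeries K) (LaurentSeries K) w ≠ 0 := by
    intro h
    rw [h] at h0
    exact h0 rfl
  have ho : (algebraMap (PowerSeries K) (LaurentSeries K) w).order = 0 := by
    refine le_antisymm (HahnSeries.order_le_of_coeff_ne_zero h0) ?_
    rw [HahnSeries.le_order_iff_forall hne]
    intro j hj
    have := PowerSeries.coeff_coe w j
    rw [if_pos hj] at this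
    exact this
  exact ⟨hne, ho, by rw [HahnSeries.leadingCoeff_eq, ho, Root_coeff_zero]⟩

end Series

theorem rootAbs (h : Base.Stmt_RootL) : Stmt_RootAbs := by
  intro A₀ K F _ _ _ _ _ _ _ _ _ _ ϖ s m hϖ hm hconst hs0 hsord hroot
  let io : F →+* LaurentSeries K := algebraMap F (LaurentSeries K)
  let g : PowerSeries K →+* LaurentSeries K := algebraMap (PowerSeries K) (LaurentSeries K)
  have hg : Function.Injective g := IsFractionRing.injective _ _
  have hinj : Function.Injective (algebraMap A₀ K) := IsFractionRing.injective A₀ K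
  -- (1a) `A₀[s]` maps to power series
  have hR : ∀ x : PolyR A₀ s, ∃ w : PowerSeries K, g w = (io.comp (algebraMap (PolyR A₀ s) F)) x := by
    rintro ⟨x, hx⟩
    change ∃ w, g w = io x
    induction hx using Algebra.adjoin_induction with
    | mem x hx =>
      rw [Set.mem_singleton_iff] at hx
      subst hx
      exact Root_exists_powerSeries _ hsord.le
    | algebraMap a =>
      refine ⟨PowerSeries.C (algebraMap A₀ K a), ?_⟩
      change _ = algebraMap F (LaurentSeries K) (algebraMap A₀ F a)
      rw [hconst]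
      exact PowerSeries.coe_C _
    | add x y _ _ hx hy =>
      obtain ⟨a, ha⟩ := hx
      obtain ⟨b, hb⟩ := hy
      exact ⟨a + b, by rw [map_add, map_add, ha, hb]⟩
    | mul x y _ _ hx hy =>
      obtain ⟨a, ha⟩ := hx
      obtain ⟨b, hb⟩ := hy
      exact ⟨a * b, by rw [map_mul, map_mul, ha, hb]⟩
  -- (1b) the chart maps to power series
  have hB : ∀ b : Chart A₀ s, ∃ w : PowerSeries K, g w = (io.comp (algebraMap (Chart A₀ s) F)) b := by
    intro b
    have h1 : (algebraMap (PolyR A₀ s) F).IsIntegralElem (algebraMap (Chart A₀ s) F b) := b.2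
    have h2 := Root_isIntegralElem_map _ io h1
    have h3 : IsIntegral (PowerSeries K) (io (algebraMap (Chart A₀ s) F b)) :=
      Root_isIntegralElem_of_range g _ hR h2
    exact IsIntegrallyClosed.isIntegral_iff.1 h3
  obtain ⟨w, hw⟩ := Root_lift g hg (io.comp (algebraMap (Chart A₀ s) F)) hB
  let c0K : Chart A₀ s →+* K := (PowerSeries.constantCoeff (R := K)).comp w
  have hc0K : ∀ b, c0K b = (io (algebraMap (Chart A₀ s) F b)).coeff 0 := by
    intro b
    have e := hw b
    rw [RingHom.comp_apply] at e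
    rw [← e]
    exact (Root_coeff_zero (w b)).symm
  have hcst : ∀ a : A₀, c0K (cst A₀ s a) = algebraMap A₀ K a := by
    intro a
    rw [hc0K]
    change (algebraMap F (LaurentSeries K) (algebraMap A₀ F a)).coeff 0 = _
    rw [hconst, HahnSeries.C_apply, HahnSeries.coeff_single_same]
  have hcrd : c0K (crd A₀ s) = 0 := by
    rw [hc0K]
    exact HahnSeries.coeff_eq_zero_of_lt_order hsord
  -- (2) the constant coefficient lies in `A₀`
  have hRK : ∀ x : PolyR A₀ s, ∃ a : A₀,
      algebraMap A₀ K a = (c0K.comp (algebraMap (PolyR A₀ s) (Chart A₀ s))) x := by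
    rintro ⟨x, hx⟩
    induction hx using Algebra.adjoin_induction with
    | mem x hx =>
      rw [Set.mem_singleton_iff] at hx
      subst hx
      exact ⟨0, by rw [map_zero]; exact hcrd.symm⟩
    | algebraMap a => exact ⟨a, (hcst a).symm⟩
    | add x y hx hy ihx ihy =>
      obtain ⟨a, ha⟩ := ihx
      obtain ⟨b, hb⟩ := ihy
      exact ⟨a + b, by rw [map_add, ha, hb, ← map_add]; rfl⟩
    | mul x y hx hy ihx ihy =>
      obtain ⟨a, ha⟩ := ihx
      obtain ⟨b, hb⟩ := ihy
      exact ⟨a * b, by rw [map_mul, ha, hb, ← map_mul]; rfl⟩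
  have hint : ∀ b : Chart A₀ s, ∃ a : A₀, algebraMap A₀ K a = c0K b := by
    intro b
    have h1 : (algebraMap (PolyR A₀ s) (Chart A₀ s)).IsIntegralElem b :=
      Algebra.IsIntegral.isIntegral b
    have h2 := Root_isIntegralElem_map _ c0K h1
    have h3 : IsIntegral A₀ (c0K b) := Root_isIntegralElem_of_range (algebraMap A₀ K) _ hRK h2
    exact IsIntegrallyClosed.isIntegral_iff.1 h3
  obtain ⟨c0, hc0⟩ := Root_lift (algebraMap A₀ K) hinj c0K hint
  -- (3) the maximal ideal
  have hc0cst : ∀ a, c0 (cst A₀ s a) = a := fun a => hinj (by rw [hc0, hcst])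
  have hsurj : Function.Surjective c0 := fun a => ⟨_, hc0cst a⟩
  refine ⟨(IsLocalRing.maximalIdeal A₀).comap c0, Ideal.comap_isMaximal_of_surjective c0 hsurj,
    ?_, ?_, ?_⟩
  · rw [Ideal.mem_comap, hc0cst]
    exact hϖ.not_isUnit
  · have e : c0 (crd A₀ s) = 0 := hinj (by rw [hc0, hcrd, map_zero])
    rw [Ideal.mem_comap, e]
    exact zero_mem _
  -- (4) local units
  · rintro ε ⟨s', hs', p, hp, e⟩
    have us' : IsUnit (c0 s') := IsLocalRing.notMem_maximalIdeal.1 hs'
    have up : IsUnit (c0 p) := IsLocalRing.notMem_maximalIdeal.1 hp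
    obtain ⟨t, ht⟩ := isUnit_iff_exists_inv.1 us'
    have ut : IsUnit t := IsUnit.of_mul_eq_one_right _ ht
    obtain ⟨d, hd⟩ := hroot (c0 p * t) (up.mul ut)
    have hcs' : PowerSeries.constantCoeff (w s') = algebraMap A₀ K (c0 s') := (hc0 s').symm
    have hcp : PowerSeries.constantCoeff (w p) = algebraMap A₀ K (c0 p) := (hc0 p).symm
    have hcs'0 : PowerSeries.constantCoeff (w s') ≠ 0 := by
      rw [hcs']
      exact (us'.map (algebraMap A₀ K)).ne_zero
    have hv : g (w p * (w s')⁻¹) = io ε := by
      have e' : g (w s') * io ε = g (w p) := by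
        rw [hw, hw, RingHom.comp_apply, RingHom.comp_apply, ← map_mul, e]
      apply mul_left_cancel₀ (Root_order_leadingCoeff _ hcs'0).1
      change g (w s') * _ = g (w s') * _
      rw [e', ← map_mul, mul_left_comm, PowerSeries.mul_inv_cancel _ hcs'0, mul_one]
    have hcv : PowerSeries.constantCoeff (w p * (w s')⁻¹) = algebraMap A₀ K d ^ m := by
      have e1 : algebraMap A₀ K t = (algebraMap A₀ K (c0 s'))⁻¹ :=
        eq_inv_of_mul_eq_one_right (by rw [← map_mul, ht, map_one])
      rw [map_mul, PowerSeries.constantCoeff_inv, hcs', hcp, ← map_pow, hd, map_mul, e1]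
    have hcv0 : PowerSeries.constantCoeff (w p * (w s')⁻¹) ≠ 0 := by
      rw [hcv, ← map_pow, hd]
      exact ((up.mul ut).map (algebraMap A₀ K)).ne_zero
    obtain ⟨hne, ho, hl⟩ := Root_order_leadingCoeff _ hcv0
    change ∃ y : LaurentSeries K, y ^ m = io ε
    rw [← hv]
    exact h K m _ hm hne (by rw [ho]; exact dvd_zero _) ⟨algebraMap A₀ K d, by rw [hl, hcv]⟩

end Fermat.Agent.S36.Inst

end
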