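import Fermat.Agent.S36.Inst.RM
import Fermat.Agent.S36.Inst.MkZ
import Fermat.Agent.S36.Inst.PolyDim
import Fermat.Agent.S36.Inst.CtxT
import Fermat.Agent.S36.Inst.BezJT
import Fermat.Agent.S36.Inst.Root
import Fermat.Agent.S36.Inst.Cast
import Fermat.Agent.S36.Reg.RegChart
import Fermat.Agent.S36.Reg.RegNC
import Fermat.Agent.S36.Reg.RegC
import Fermat.Agent.S36.Reg.PrincO
import Fermat.Agent.S36.Reg.AdjJD
import Fermat.Agent.S36.Reg.Chart2
import Fermat.Agent.S36.Reg.CuspTri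
import Fermat.Agent.S36.Reg.CuspMid
import Fermat.Agent.S36.Reg.Dich
import Fermat.Agent.S36.Reg.UU
import Fermat.Agent.S36.Reg.Princ
import Fermat.Agent.S36.Reg.Ded
import Fermat.Agent.S36.Loc.Nor
import Fermat.Agent.S36.Val.All
import Fermat.Agent.S36.Val.FrickeE
import Fermat.Agent.S36.Dict.WAlg
import Fermat.Agent.S36.Base.All
import Fermat.Agent.S36.Gre.Interface
import Fermat.Agent.CAR.Unit.Interface4

/-!
# S36 / Inst : everything landed plugged in (helper45)

`inst_all` : `Stmt_Inst` from the four remaining inputs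
`Stmt_FactsJ` [PHI + VAL], `CAR.Unit.Stmt_Facts` [UNIT], `Stmt_LocInst` [LOC],
`Gre.Stmt_GoodCoord` [GRE].
-/

set_option autoImplicit false

namespace Fermat.Agent.S36.Inst

open Fermat.Agent Fermat.Agent.S36 Fermat.Agent.S36.Reg

theorem all_Chart2 : Stmt_Chart2 := chart2 (cuspTri (dich uu)) cuspMid princ

theorem all_RegChart : Stmt_RegChart :=
  regChart intAdj intO (regNC intO princO) (regC all_Chart2) jDich

theorem all_MkZ : Stmt_MkZ := mkZ all_RegChart ded Loc.norIC Loc.norAt polyDim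

theorem all_Ctx : Stmt_Ctx := ctx Val.all_AL Val.all_Mid Val.all_MidSat Val.stmt_LevelMaps

theorem all_FrickeE : Stmt_FrickeE := by
  intro A N _
  obtain ⟨w, h1, h2⟩ := Val.stmt_FrickeE Base.all_Descent Dict.frickeGal A N
  exact ⟨w, h2, h1⟩

theorem all_HDivInst : Stmt_HDivInst := by
  intro A r N m _ t u hr hA ht hu
  obtain ⟨hd, hirr⟩ := Base.all_DVR r A hr hA
  have := hd
  exact Base.all_hdiv A N _ hirr m t u ht hu

theorem good_of (h : Gre.Stmt_GoodCoord) : Stmt_Good := by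
  intro A r M _ t₀ hr hrM hA haux hT
  exact (h (Dict.auxLevel r) r M hr (RM_aux r) haux hrM A hA t₀ hT).2.1

/-- **the state of the art**. -/
theorem instRM_all (hFJ : Stmt_FactsJ) (hXB : CAR.Unit.Stmt_Facts) (hLoc : Stmt_LocInst)
    (hGood : Gre.Stmt_GoodCoord) : Stmt_InstRM :=
  instRM_core all_MkZ all_Ctx stmtT bez jt hFJ hXB hLoc (good_of hGood) (rootAbs Base.all_RootL) all_FrickeE
    all_HDivInst Val.all_Main1 Val.all_Main2 Val.all_NormU Val.all_PM Val.stmt_OrdOf Base.all_DVR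
    Base.all_Mu Base.all_Fin Base.all_IntConst

theorem inst_all (hFJ : Stmt_FactsJ) (hXB : CAR.Unit.Stmt_Facts) (hLoc : Stmt_LocInst)
    (hGood : Gre.Stmt_GoodCoord) : Stmt_Inst :=
  inst_of (instRM_all hFJ hXB hLoc hGood)

end Fermat.Agent.S36.Inst
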