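import Fermat.Agent.S36.Inst.Concrete
import Fermat.Agent.S36.GRE.All

/-!
# S36 / Inst : the contract of [GRE] (`Stmt_Good`), unconditional (helper5)
-/

set_option autoImplicit false

namespace Fermat.Agent.S36.Inst

theorem Good_auxLevel (r : ℕ) : Dict.auxLevel r = 4 ∨ Dict.auxLevel r = 9 := by
  unfold Dict.auxLevel
  split_ifs
  · exact Or.inr rfl
  · exact Or.inl rfl

theorem stmt_Good : Stmt_Good := by
  intro A r M _ t₀ hr hrM hA haM ht₀
  exact (GRE.all_GoodCoord (Dict.auxLevel r) r M hr (Good_auxLevel r) haM hrM A hA t₀ ht₀).2.1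

end Fermat.Agent.S36.Inst
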