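import Fermat.Agent.S36.Inst.All
import Fermat.Agent.S36.Inst.FactsJ
import Fermat.Agent.S36.Inst.Good
import Fermat.Agent.S36.Phi.Out
import Fermat.Agent.S36.Phi.Deg
import Fermat.Agent.S36.Phi.Ord
import Fermat.Agent.S36.Phi.Sym
import Fermat.Agent.CAR.Unit.Main2

/-!
# S36 / Inst : `Stmt_Inst` from `Stmt_LocInst` alone (helper45)
-/

set_option autoImplicit false

namespace Fermat.Agent.S36.Inst

open Fermat.Agent Fermat.Agent.S36

theorem all_FactsJ : Stmt_FactsJ := factsJ (Phi.phi (Phi.phiDeg Phi.phiOrd Phi.phiSym))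

/-- everything but [LOC]. -/
theorem instRM_of_loc (hLoc : Stmt_LocInst) : Stmt_InstRM :=
  instRM_core all_MkZ all_Ctx stmtT bez jt all_FactsJ CAR.Unit.U.facts hLoc stmt_Good (rootAbs Base.all_RootL)
    all_FrickeE all_HDivInst Val.all_Main1 Val.all_Main2 Val.all_NormU Val.all_PM Val.stmt_OrdOf
    Base.all_DVR Base.all_Mu Base.all_Fin Base.all_IntConst

theorem inst_of_loc (hLoc : Stmt_LocInst) : Stmt_Inst := inst_of (instRM_of_loc hLoc)

end Fermat.Agent.S36.Inst
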