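import Fermat.Agent.S36.Inst.Concrete
import Fermat.Agent.CAR.Unit.Main2

/-!
# S36 / Inst : `Stmt_FactsB`, `Stmt_FactsB2` from the package [UNIT] (`CAR/Unit/FactsBInst.lean`)

The facts on `β = t(q^(r²)) - t(q)` have been proved in [UNIT] (`CAR.Unit.factsB4`, in the language
`IsEta`); this file is the adapter to the table `XTab`.
-/

set_option autoImplicit false

namespace Fermat.Agent.S36.Inst

open Fermat.Agent
open Fermat.Agent.S24 (Qbar FF jF)
open Fermat.Agent.S36 Fermat.Agent.S36.Reg Fermat.Agent.S36.Base Fermat.Agent.S36.Val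
open Fermat.Agent.CAR.Unit (etaLser lx1 lx2 lf4 IsEta)

/-- an element of `F_E` whose expansion over `ℚ̄` is an eta quotient is that eta quotient. -/
theorem FB_isEta (A : ValuationSubring Qbar) {N : ℕ} (x : FE A N) (n : ℤ) (l : List (ℕ × ℤ))
    (h : phiA A N x = etaLser Qbar n l) : IsEta A x n l := by
  apply cmE_injective A
  exact h.trans (CAR.Unit.L4_coeffMap_etaLser (algebraMap (IE A) Qbar) n l).symm

/-- **INST-FB2**. -/
theorem factsB2 : Stmt_FactsB2 := CAR.Unit.factsB2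

/-- **INST-FB** from the statements of [UNIT]. -/
theorem factsB_of (h4 : CAR.Unit.Stmt_factsB4) (hE : CAR.Unit.Stmt_eltE) (hM : CAR.Unit.Stmt_MU) :
    Stmt_FactsB := by
  intro A r M _ _ _ _ C T t₀ _ h4M _
  obtain ⟨-, hMT⟩ := CAR.Unit.R6_MU hM r M C.hr.pos (Nat.pos_of_ne_zero (NeZero.ne M))
  obtain ⟨mT0, -, mT2⟩ := hMT h4M
  obtain ⟨T0, hT0⟩ := hE A (r ^ 2 * M) _ _ mT0
  obtain ⟨T2, hT2⟩ := hE A (r ^ 2 * M) _ _ mT2
  exact h4 A r M C T.x1 T.x2 T0 T2 h4M (FB_isEta A _ _ _ T.A1) (FB_isEta A _ _ _ T.A2) hT0 hT2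

/-- **INST-FB**, unconditionally. -/
theorem factsB : Stmt_FactsB := factsB_of CAR.Unit.U.factsB4 CAR.Unit.U.eltE CAR.Unit.U.mu

end Fermat.Agent.S36.Inst
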