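import Fermat.Agent.S36.Inst.Concrete
import Fermat.Agent.CAR.Unit.ValX
import Fermat.Agent.CAR.Unit.SerCalc
import Fermat.Agent.CAR.Unit.GaussEta

/-!
# S36 / Inst, task INST-FX (helper2): from the table of `x₁, x₂` to `FactsX`.

The computation is the one of `CAR/Unit/ValX.lean` (helper72), with the table `XTab` as input.
-/

set_option autoImplicit false

namespace Fermat.Agent.S36.Inst

open Fermat.Agent
open Fermat.Agent.S24 (Qbar FF jF)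
open Fermat.Agent.S36 Fermat.Agent.S36.Reg Fermat.Agent.S36.Base
open Fermat.Agent.S36.Val
open Fermat.Agent.CAR.Unit
open Fermat.Agent.INJ.Inst (kA)
open Fermat.Agent.ES.Mid (tw)
open Fermat.Agent.CAR (NR.IsUnif)

/-- valuations and congruences from the table. -/
theorem FX_val (hS : Stmt_serCalc) (hN : Stmt_listNum) (A : ValuationSubring Qbar) (r M : ℕ)
    [NeZero r] [NeZero M] [NeZero (r * M)] [NeZero (r ^ 2 * M)] (C : Ctx A r M)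
    (lf : List (ℕ × ℤ)) (hpos : PosL lf) (T : XTab C lf) :
    ((C.O 0).valuation T.x1 = 1 ∧ (C.O 0).valuation T.x2 = 1) ∧
    ((C.O 1).valuation T.x1 = 1 ∧ (C.O 1).valuation ((r : FE A (r ^ 2 * M)) * T.x2) = 1) ∧
    ((C.O 2).valuation ((r : FE A (r ^ 2 * M)) * T.x1) = 1 ∧
      (C.O 2).valuation ((r : FE A (r ^ 2 * M)) * T.x2) = 1) ∧
    (∃ ε : FE A (r ^ 2 * M), (ε = 1 ∨ ε = -1) ∧
      (C.O 1).valuation ((r : FE A (r ^ 2 * M)) * T.x2 - ε * T.x1⁻¹) < 1) ∧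
    (C.O 0).valuation (T.x1 / T.x2 - T.x1⁻¹ ^ (r - 1)) < 1 := by
  have hG : Stmt_gaussEta := gaussEta hS
  obtain ⟨X1, hX1⟩ : ∃ X1, X1 = T.x1 := ⟨_, rfl⟩
  obtain ⟨X2, hX2⟩ : ∃ X2, X2 = T.x2 := ⟨_, rfl⟩
  obtain ⟨εM, hεM'⟩ : ∃ ε, ε = T.ε₃ := ⟨_, rfl⟩
  have pA1 := T.A1
  have pA2 := T.A2
  have pM1 := T.M1
  have pM2 := T.M2
  have pC1 := T.C1
  have pC2 := T.C2
  have hεM := T.h₃
  have hεC1 := T.h₁
  have hεC2 := T.h₂
  rw [← hX1] at pA1 pM1 pC1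
  rw [← hX2] at pA2 pM2 pC2
  rw [← hεM'] at pM2 hεM
  rw [← hX1, ← hX2]
  have hchar : ((r : ℕ) : kA A) = 0 := by
    have := JTw_charP A C.hr C.hA
    exact CharP.cast_eq_zero _ r
  obtain ⟨hfb, e3, e1, e2⟩ := Q1_ser hS hN (kA A) r C.hr hchar lf hpos
  have hne : ∀ (n : ℤ) l, etaLser (kA A) n l ≠ 0 := fun n l => hS.2.2.2.2.2 (kA A) n l
  have hU : ∀ (n : ℤ) l, GInt A (etaLser Qbar n l) ∧ gred A (etaLser Qbar n l) ≠ 0 := by
    intro n l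
    refine ⟨(hG A n l).1, ?_⟩
    rw [(hG A n l).2]
    exact hne n l
  have hr0 : r ≠ 0 := C.hr.ne_zero
  have k0 : ∀ x, (C.O 0).valuation x = 1 ↔
      GInt A (phiA A (r ^ 2 * M) x) ∧ gred A (phiA A (r ^ 2 * M) x) ≠ 0 :=
    fun x => gv_eq_one_iff (phiA A (r ^ 2 * M)) (fun _ => sat_incl A (r ^ 2 * M) _) x
  have k1 : ∀ x, (C.O 1).valuation x = 1 ↔
      GInt A (phiM A C.D x) ∧ gred A (phiM A C.D x) ≠ 0 :=
    fun x => gv_eq_one_iff (phiM A C.D) (fun _ => C.hS _) x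
  have k2 : ∀ x, (C.O 2).valuation x = 1 ↔
      GInt A (phiC A C.W2 x) ∧ gred A (phiC A C.W2 x) ≠ 0 :=
    fun x => gv_eq_one_iff (phiC A C.W2) (fun _ => sat_incl A (r ^ 2 * M) _) x
  have l0 : ∀ x, (C.O 0).valuation x < 1 ↔
      GInt A (phiA A (r ^ 2 * M) x) ∧ gred A (phiA A (r ^ 2 * M) x) = 0 :=
    fun x => gv_lt_one_iff (phiA A (r ^ 2 * M)) (fun _ => sat_incl A (r ^ 2 * M) _) x
  have l1 : ∀ x, (C.O 1).valuation x < 1 ↔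
      GInt A (phiM A C.D x) ∧ gred A (phiM A C.D x) = 0 :=
    fun x => gv_lt_one_iff (phiM A C.D) (fun _ => C.hS _) x
  -- the series `Y = f(ζ q) / f(q^r)`
  obtain ⟨Y, hY⟩ : ∃ Y, Y = tw C.D.ζ (etaLser Qbar 0 lf) * etaLser Qbar 0 (negL (scaleL r lf)) :=
    ⟨_, rfl⟩
  have htw := stmt_GVTw A r C.hr C.hA C.D.ζ C.D.prim.pow_eq_one (etaLser Qbar 0 lf) (hG A 0 lf).1
  have hYi : GInt A Y := by rw [hY]; exact htw.1.mul (hG A 0 _).1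
  have hYr : gred A Y = etaLser (kA A) 0 lf * (etaLser (kA A) 0 lf ^ r)⁻¹ := by
    rw [hY, gred_mul htw.1 (hG A 0 _).1, htw.2, (hG A 0 lf).2, (hG A 0 _).2, e3]
  have hYn : gred A Y ≠ 0 := by
    rw [hYr]; exact mul_ne_zero hfb (inv_ne_zero (pow_ne_zero _ hfb))
  rw [← hY] at pM2
  have qM2 : phiM A C.D ((r : FE A (r ^ 2 * M)) * X2) = εM • Y := by
    rw [map_mul, map_natCast, pM2, Q1_smul εM hr0]
  have qC1 : phiC A C.W2 ((r : FE A (r ^ 2 * M)) * X1)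
      = T.ε₁ • etaLser Qbar 0 (negL (lx2 lf r)) := by
    rw [map_mul, map_natCast, pC1, Q1_smul T.ε₁ hr0]
  have qC2 : phiC A C.W2 ((r : FE A (r ^ 2 * M)) * X2)
      = T.ε₂ • etaLser Qbar 0 (negL (lx1 lf r)) := by
    rw [map_mul, map_natCast, pC2, Q1_smul T.ε₂ hr0]
  refine ⟨⟨?_, ?_⟩, ⟨?_, ?_⟩, ⟨?_, ?_⟩, ?_, ?_⟩
  · rw [k0, pA1]; exact hU _ _
  · rw [k0, pA2]; exact hU _ _
  · rw [k1, pM1]; exact hU _ _
  · rw [k1, qM2]; exact Q1_pm hεM hYi hYn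
  · rw [k2, qC1]; exact Q1_pm hεC1 (hU _ _).1 (hU _ _).2
  · rw [k2, qC2]; exact Q1_pm hεC2 (hU _ _).1 (hU _ _).2
  · -- `r x₂ ≡ ± 1 / x₁` on the middle component
    have hZi : GInt A (etaLser Qbar 0 (lx1 lf r))⁻¹ := (hU 0 _).1.inv (hU 0 _).2
    have hZr : gred A (etaLser Qbar 0 (lx1 lf r))⁻¹ = gred A Y := by
      rw [gred_inv (hU 0 _).1 (hU 0 _).2, (hG A 0 _).2, e1, hYr, Q1_field1]
    rcases hεM with h | h
    · refine ⟨1, Or.inl rfl, ?_⟩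
      rw [l1, map_sub, qM2, one_mul, map_inv₀, pM1, h, one_smul]
      exact ⟨hYi.sub hZi, by rw [gred_sub hYi hZi, hZr, sub_self]⟩
    · refine ⟨-1, Or.inr rfl, ?_⟩
      have : phiM A C.D ((r : FE A (r ^ 2 * M)) * X2 - -1 * X1⁻¹)
          = -(Y - (etaLser Qbar 0 (lx1 lf r))⁻¹) := by
        rw [map_sub, qM2, map_mul, map_neg, map_one, map_inv₀, pM1, h, neg_smul, one_smul]
        ring
      rw [l1, this]
      exact ⟨(hYi.sub hZi).neg, by rw [gred_neg (hYi.sub hZi), gred_sub hYi hZi, hZr, sub_self,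
        neg_zero]⟩
  · -- `x₁ / x₂ ≡ x₁^(-(r-1))` on the component `A`
    have i1 := hU 0 (lx1 lf r)
    have i2 := hU 0 (lx2 lf r)
    have j1 : GInt A (etaLser Qbar 0 (lx1 lf r) / etaLser Qbar 0 (lx2 lf r)) := by
      rw [div_eq_mul_inv]; exact i1.1.mul (i2.1.inv i2.2)
    have j2 : GInt A ((etaLser Qbar 0 (lx1 lf r))⁻¹ ^ (r - 1)) := (i1.1.inv i1.2).pow _
    rw [l0, map_sub, map_div₀, map_pow, map_inv₀, pA1, pA2]
    refine ⟨j1.sub j2, ?_⟩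
    rw [gred_sub j1 j2, gred_pow (i1.1.inv i1.2), gred_inv i1.1 i1.2, div_eq_mul_inv,
      gred_mul i1.1 (i2.1.inv i2.2), gred_inv i2.1 i2.2, (hG A 0 _).2, (hG A 0 _).2, e1, e2,
      ← div_eq_mul_inv, Q1_field2 _ hfb r C.hr.pos, sub_self]

/-- abstract form of the assembly. -/
theorem FX_mk {A₀ F F' R' : Type} [CommRing A₀] [Field F] [CharZero F] [Algebra A₀ F]
    [Field F'] [CommRing R'] [Algebra R' F'] (e : F →+* F')
    (r : ℕ) (hr : r ≠ 0) (ord : Fin 3 → F → ℤ) (j X1 X2 ε : F)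
    (hJ : ∀ x : F, IsIntegral R' (e x) → IntJ A₀ r j x)
    (hX1 : X1 ≠ 0) (hX2 : X2 ≠ 0)
    (i1 : IsIntegral R' (e X1)) (i1' : IsIntegral R' (e X1)⁻¹)
    (i2 : IsIntegral R' (e X2)) (i2' : IsIntegral R' (e X2)⁻¹)
    (hA : ord 0 ((r : F) * X2) = 1 ∧ ord 1 ((r : F) * X2) = 0 ∧ ord 2 ((r : F) * X2) = 0)
    (hC : ord 0 X1⁻¹ = 0 ∧ ord 1 X1⁻¹ = 0 ∧ ord 2 X1⁻¹ = 1)
    (hM : ord 0 (X1 / X2) = 0 ∧ ord 1 (X1 / X2) = (r : ℤ) - 1 ∧ ord 2 (X1 / X2) = 0)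
    (hε : ε = 1 ∨ ε = -1) (hcM : VPos (ord 1) ((r : F) * X2 - ε * X1⁻¹))
    (hcA : VPos (ord 0) (X1 / X2 - X1⁻¹ ^ (r - 1))) :
    ∃ X : FactsX A₀ F r ord j, X.aA = (r : F) * X2 ∧ X.aC = X1⁻¹ ∧ X.aM = X1 / X2 := by
  have hr' : (r : F) ≠ 0 := Nat.cast_ne_zero.2 hr
  refine ⟨{ aA := (r : F) * X2, aC := X1⁻¹, aM := X1 / X2, ε := ε
            prod := by field_simp
            ordA := ⟨mul_ne_zero hr' hX2, hA⟩
            ordC := ⟨inv_ne_zero hX1, hC⟩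
            ordM := ⟨div_ne_zero hX1 hX2, hM⟩
            hε := hε
            congM := hcM
            congA := hcA
            intA := hJ _ (by rw [map_mul, map_natCast]; exact (isIntegral_natCast r).mul i2)
            intC := hJ _ (by rw [map_inv₀]; exact i1')
            intM := hJ _ (by rw [map_div₀, div_eq_mul_inv]; exact i1.mul i2') }, rfl, rfl, rfl⟩

theorem factsX (_h1 : Val.Stmt_GVApi) (h2 : Val.Stmt_OrdOf) (h3 : Val.Stmt_Main1)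
    (_h4 : Val.Stmt_GVTw) (h5 : CAR.Unit.Stmt_listCalc) (h6 : CAR.Unit.Stmt_frob)
    (h7 : Stmt_IntDesc) : Stmt_FactsX := by
  intro A r M _ _ _ _ C a lf χ T hW
  obtain ⟨v0, v1, v2, ⟨ε, hε, hcM⟩, hcA⟩ := FX_val (serCalc h5 h6) listNum A r M C lf hW.pos T
  obtain ⟨hU, hρ, -⟩ := h3 A r M C
  obtain ⟨hA, hC, hMM⟩ := Q1_ordX_abs h2 (FE A (r ^ 2 * M)) C.O C.unif hU (r : FE A (r ^ 2 * M))
    T.x1 T.x2 ((r : ℤ) - 1) hρ v0 v1 v2
  have hX1 : T.x1 ≠ 0 := by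
    intro h
    rw [h, map_zero] at v0
    exact zero_ne_one v0.1
  have hX2 : T.x2 ≠ 0 := by
    intro h
    rw [h, map_zero] at v0
    exact zero_ne_one v0.2
  have vpos : ∀ (X : Fin 3) (z : FE A (r ^ 2 * M)), (C.O X).valuation z < 1 → VPos (C.ord X) z :=
    fun X z h => ((h2 _ (C.O X) (C.unif X) (hU X)).2.2.2.1 z).2 h
  exact FX_mk (A₀ := AE A) (emb A (r ^ 2 * M)) r C.hr.ne_zero C.ord (jE A (r ^ 2 * M) 1)
    T.x1 T.x2 ε (fun x hx => h7 A r (r ^ 2 * M) C.hr C.hA x hx) hX1 hX2 T.int1 T.int1' T.int2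
    T.int2' hA hC hMM hε (vpos 1 _ hcM) (vpos 0 _ hcA)

end Fermat.Agent.S36.Inst
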