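import Fermat.Agent.S36.Inst.Concrete
import Fermat.Agent.S36.Val.FrickeE

/-!
# S36 / Inst : INST-W1 (`Stmt_FrickeE`) and INST-HD (`Stmt_HDivInst`)

* `frickeE` : the Fricke involution restricted to `F_E` (this is `Val.stmt_FrickeE`, with the two
  clauses in the order of `Inst.Stmt_FrickeE`).
* `hDivInst` : `IsDiv N m (emb u)` gives (HDIV) on the chart with coordinate `t`: a height one prime
  not containing the uniformiser `r` of the discrete valuation ring `A_E` contains no nonzero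
  constant (`FrickeE_hdiv_abs`, abstract), so `Base.Stmt_HDIV` applies.
-/

set_option autoImplicit false

noncomputable section

namespace Fermat.Agent.S36.Inst

open Fermat.Agent
open Fermat.Agent.S24 (Qbar FF)
open Fermat.Agent.KL Fermat.Agent.S36 Fermat.Agent.S36.Base

/-- **INST-W1** -/
theorem frickeE (h1 : Dict.Stmt_FrickeGal) (h2 : Base.Stmt_Descent) : Inst.Stmt_FrickeE := by
  intro A N _
  obtain ⟨w, hw1, hw2⟩ := Val.stmt_FrickeE h2 h1 A N
  exact ⟨w, hw2, hw1⟩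

/-- abstract form of INST-HD. -/
theorem FrickeE_hdiv_abs (A₀ F : Type) [CommRing A₀] [IsDomain A₀] [IsDiscreteValuationRing A₀]
    [Field F] [Algebra A₀ F] (t u : F) (ϖ : A₀) (m : ℕ) (hϖ : Irreducible ϖ)
    (h : ∀ 𝔭 : Ideal (Chart A₀ t), IsHtOne 𝔭 → (∀ c : A₀, c ≠ 0 → cst A₀ t c ∉ 𝔭) →
      ∃ g : F, g ≠ 0 ∧ UnitAt 𝔭 (u / g ^ m)) :
    HDivOut A₀ F ϖ t m u := by
  intro 𝔭 hp hne hmin hϖp
  refine h 𝔭 ⟨hp, hne, hmin⟩ ?_
  intro c hc hcp
  obtain ⟨n, v, hv⟩ := IsDiscreteValuationRing.associated_pow_irreducible hc hϖ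
  have h1 : cst A₀ t ϖ ^ n ∈ 𝔭 := by
    rw [← map_pow, ← map_pow, ← hv, map_mul, map_mul]
    exact 𝔭.mul_mem_right _ hcp
  exact hϖp (hp.mem_of_pow_mem n h1)

/-- **INST-HD** -/
theorem hDivInst (h1 : Base.Stmt_HDIV) (h2 : Base.Stmt_DVR) : Stmt_HDivInst := by
  intro A r N m _ t u hr hA ht hu
  obtain ⟨hdvr, hirr⟩ := h2 r A hr hA
  exact FrickeE_hdiv_abs (AE A) (FE A N) t u _ m hirr (h1 A N m t u ht hu)

end Fermat.Agent.S36.Inst

end
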