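import Fermat.Agent.S36.Inst.Concrete
import Fermat.Agent.CAR.Unit.IntJE
import Fermat.Agent.CAR.Unit.IntJA
import Fermat.Agent.S36.Base.Unram

/-!
# S36 / Inst : descent of integrality from `ℚ̄[j]` to `A_E[1/r][j]` (`Stmt_IntDesc`)
-/

set_option autoImplicit false

namespace Fermat.Agent.S36.Inst

open Fermat.Agent

/-- unconditional form. -/
theorem intDesc0 : Stmt_IntDesc := fun A r N _ hr hA z hz =>
  CAR.Unit.intJA Base.stmt_Unram A r N hr hA z (CAR.Unit.intJE A N z hz)

/-- the signature asked for by the task (the hypotheses are not needed). -/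
theorem intDesc (_h1 : Base.Stmt_LinDisj) (_h2 : Base.Stmt_DVR) : Stmt_IntDesc := intDesc0

end Fermat.Agent.S36.Inst
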