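import Fermat.Agent.S36.Inst.Concrete
import Fermat.Agent.S36.Val.PhiLevel
import Fermat.Agent.S36.Val.LevelMaps

/-!
# S36 / Inst : INST-LEV, the three expansions of the elements of level `M`
-/

set_option autoImplicit false

noncomputable section

namespace Fermat.Agent.S36.Inst

open Fermat.Agent
open Fermat.Agent.S24 (Qbar FF)
open Fermat.Agent.S36.Base Fermat.Agent.S36.Val
open Fermat.Agent.ES.Mid (tw)
open ModularCurve (qExpand)

theorem lev (h1 : Val.Stmt_PhiLevel) (h2 : Val.Stmt_PhiGen) (h3 : Val.Stmt_ExtRingE)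
    (h4 : Val.Stmt_LevelMaps) (_h5 : Val.Stmt_LevelConst) : Stmt_Lev := by
  intro A r M _ _ _ _ C
  obtain ⟨p1, p2, p3, -, -, -, p7, p8⟩ := h1 A r M C
  obtain ⟨hA1, hA2, hC1, hC2, -, hM2, hM3⟩ := h2 A
  have hr0 : r ≠ 0 := NeZero.ne r
  have : NeZero (r ^ 2) := ⟨pow_ne_zero 2 hr0⟩
  have e02 : ∀ x, i02 C x = C.i12 (C.i01 x) := fun _ => rfl
  refine ⟨fun x => ?_, fun x => ?_, fun x => ?_, fun d hd => ?_, ?_⟩
  · rw [e02, p1, p7]
  · rw [e02, p2, p7]
  · rw [e02, p3, p8, ← S28.Vq_eq, S28.tower_Vq_Vq Qbar hr0 hr0, ← pow_two]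
  · have hd1 : d ∣ r * M := hd.trans (dvd_mul_left M r)
    rw [e02, PhiLevel_incl_jE A _ C.hi01 hd hd1,
      PhiLevel_incl_jE A _ C.hi12 hd1 (hd1.trans PhiLevel_dvd12)]
  · obtain ⟨v, hv⟩ := (h4 A M (r ^ 2 * M)).2 (r ^ 2) (dvd_refl _)
    have hvj : ∀ d, d ∣ M → v (jE A M d) = jE A (r ^ 2 * M) (r ^ 2 * d) := fun d hd =>
      PhiLevel_V_jE A v hv hd (mul_dvd_mul_left _ hd)
    refine ⟨v, fun x => ?_, fun x => ?_, fun x => ?_, X2_V_const A (r ^ 2) v hv, hvj⟩
    · rw [PhiLevel_phiA, PhiLevel_phiA, hv x, S28.Vq_eq]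
      exact ModularCurve.coeffMap_qExpand _ (r ^ 2) _
    · have := h3 A M (LaurentSeries Qbar) ((phiM A C.D).comp v)
        ((PhiLevel_twHom C.D.ζ).comp (phiA A M)) ?_ ?_
      · exact RingHom.congr_fun this x
      · intro c
        rw [RingHom.comp_apply, RingHom.comp_apply, PhiLevel_V_alg A v hv, hM3, hA2,
          PhiLevel_twHom_apply, PhiLevel_tw_alg]
      · intro d hd
        rw [RingHom.comp_apply, RingHom.comp_apply, hvj d hd, hM2 r M C.D d hd, hA1 M d hd,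
          PhiLevel_twHom_apply]
    · have := h3 A M (LaurentSeries Qbar) ((phiC A C.W2).comp v) (phiA A M) ?_ ?_
      · exact RingHom.congr_fun this x
      · intro c
        rw [RingHom.comp_apply, PhiLevel_V_alg A v hv, hC2, hA2]
      · intro d hd
        rw [RingHom.comp_apply, hvj d hd, hC1 (r ^ 2) M C.W2 (r ^ 2) d (dvd_refl _) hd,
          Nat.div_self (NeZero.pos (r ^ 2)), one_mul, hA1 M d hd]

end Fermat.Agent.S36.Inst

end
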