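import Fermat.Agent.S36.Inst.Concrete
import Fermat.Agent.S36.Phi.Deg
import Fermat.Agent.INJ.Inst.Basic

/-!
# S36 / Inst : task PHI-1.  The shape of the modular polynomial `Φ_r` (`Stmt_PhiZ`)
-/

set_option autoImplicit false

noncomputable section

namespace Fermat.Agent.S36.Inst

open Fermat.Agent
open Fermat.Agent.S36 Fermat.Agent.S36.Reg
open ModularCurve (coeffMap jqModC qExpand)
open Polynomial

/-- `ev2` as a double sum (reflected indices). -/
theorem PhiZ_expand (Φ : ℤ[X][X]) (n : ℕ) (hΦ : Φ.natDegree < n + 1)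
    (hc : ∀ i, (Φ.coeff i).natDegree < n + 1) (x y : LaurentSeries ℤ) :
    S28.ev2 Φ x y = ∑ a ∈ Finset.range (n + 1), ∑ b ∈ Finset.range (n + 1),
      (((Φ.coeff (n - a)).coeff (n - b) : ℤ) : LaurentSeries ℤ) * x ^ (n - a) * y ^ (n - b) := by
  rw [S28.ev2, Polynomial.eval₂_eq_sum_range' _ hΦ, ← Finset.sum_range_reflect]
  refine Finset.sum_congr rfl fun a _ => ?_
  rw [Nat.add_sub_cancel, S28.evY, Polynomial.coe_eval₂RingHom,
    Polynomial.eval₂_eq_sum_range' _ (hc _), ← Finset.sum_range_reflect, Finset.sum_mul]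
  refine Finset.sum_congr rfl fun b _ => ?_
  rw [Nat.add_sub_cancel, eq_intCast (HahnSeries.C : ℤ →+* LaurentSeries ℤ)]
  ring

theorem PhiZ_jd_one (R : Type) [CommRing R] : S28.jd R 1 = jqModC R := by
  rw [S28.jd, S28.Vq_eq, ModularCurve.qExpand_one_apply]

/-- transport of a double sum relation to an arbitrary ring. -/
theorem PhiZ_map (R : Type) [CommRing R] (n d e : ℕ) (c : ℕ → ℕ → ℤ)
    (h : ∑ a ∈ Finset.range (n + 1), ∑ b ∈ Finset.range (n + 1),
      ((c a b : ℤ) : LaurentSeries ℤ) * S28.jd ℤ d ^ (n - a) * S28.jd ℤ e ^ (n - b) = 0) :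
    ∑ a ∈ Finset.range (n + 1), ∑ b ∈ Finset.range (n + 1),
      ((c a b : ℤ) : LaurentSeries R) * S28.jd R d ^ (n - a) * S28.jd R e ^ (n - b) = 0 := by
  have := congrArg (coeffMap (Int.castRingHom R)) h
  simpa only [map_sum, map_mul, map_pow, map_intCast, map_zero, INJ.Inst.coeffMap_jd] using this

theorem phiZ_of (h : Phi.Stmt_PhiDeg) : Stmt_PhiZ := by
  intro r hr
  obtain ⟨Φ, hΦ⟩ := S28.FN7.hasModPoly_int hr
  obtain ⟨h1, h2, h3, h4⟩ := h r Φ hr hΦ
  obtain ⟨hmon, hdeg, e1, e2⟩ := hΦ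
  have htop : Φ.coeff (r + 1) = 1 := by rw [← hdeg]; exact hmon.coeff_natDegree
  have hc : ∀ i, (Φ.coeff i).natDegree < r + 1 + 1 := by
    intro i
    rcases Nat.eq_zero_or_pos i with rfl | hi
    · omega
    · have := h1 i hi; omega
  refine ⟨fun a b => (Φ.coeff (r + 1 - a)).coeff (r + 1 - b), ⟨?_, ?_, ?_, ?_, ?_⟩, ?_⟩
  · intro b hb
    show (Φ.coeff (r + 1 - 0)).coeff (r + 1 - b) = 0
    rw [Nat.sub_zero, htop, Polynomial.coeff_one, if_neg (by omega)]
  · show (Φ.coeff (r + 1 - 0)).coeff (r + 1 - (r + 1)) = 1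
    rw [Nat.sub_zero, htop, Nat.sub_self, Polynomial.coeff_one_zero]
  · intro a ha
    show (Φ.coeff (r + 1 - a)).coeff (r + 1 - 0) = 0
    exact Polynomial.coeff_eq_zero_of_natDegree_lt (by have := h1 (r + 1 - a) (by omega); omega)
  · show (Φ.coeff (r + 1 - (r + 1))).coeff (r + 1 - 0) = 1
    rw [Nat.sub_self, Nat.sub_zero, h3]
  · show (Φ.coeff (r + 1 - 1)).coeff (r + 1 - 1) = -1
    rw [Nat.add_sub_cancel, h4]
  · intro R _
    rw [PhiZ_expand Φ (r + 1) (by omega) hc, ← PhiZ_jd_one] at e1 e2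
    exact ⟨PhiZ_map R (r + 1) r 1 _ e1, PhiZ_map R (r + 1) 1 r _ e2⟩

theorem phiZ : Stmt_PhiZ := phiZ_of (Phi.phiDeg Phi.phiOrd Phi.phiSym)

end Fermat.Agent.S36.Inst

end
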