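import Fermat.Agent.S36.Inst.Concrete

/-!
# S36 / Inst : the final assembly `Stmt_InstRM` (helper45)
-/

set_option autoImplicit false

noncomputable section

namespace Fermat.Agent.S36.Inst

open Fermat.Agent
open Fermat.Agent.S24 (Qbar FF jF)
open Fermat.Agent.KL Fermat.Agent.S36 Fermat.Agent.S36.Reg Fermat.Agent.S36.Base
open Fermat.Agent.S36.Val Fermat.Agent.S36.Dict
open Fermat.Agent.CAR.Unit (etaLser lx1 lx2 negL scaleL lf4 lf9 W1)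
open Fermat.Agent.ES.Mid (tw IsDiv)
open ModularCurve (qExpand)
open Polynomial

/-- abstract: `Val.CenOut` gives `CenOutB`. -/
theorem RM_cenOutB (A₀ F : Type) [CommRing A₀] [Field F] [Algebra A₀ F] (ϖ : A₀) (t : F)
    (O : Fin 3 → ValuationSubring F) (ord : Fin 3 → F → ℤ) (h : CenOut A₀ F ϖ t O ord) :
    CenOutB A₀ F ϖ t ord :=
  ⟨fun P hP => (h.1 P hP).imp fun _ hX => hX.2,
    fun X => (h.2 X).imp fun _ hP => ⟨hP.1, hP.2.2⟩⟩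

/-- `FactsB2` for a variable `r`. -/
theorem RM_factsB2 (h : Stmt_FactsB2) (A₀ F : Type) [CommRing A₀] [Field F] [Algebra A₀ F] (r : ℕ)
    (hr : r = 2) (ord : Fin 3 → F → ℤ) (j : F) (X : FactsX A₀ F r ord j) :
    Nonempty (FactsB A₀ F r ord j X.aM) := by
  subst hr
  exact h A₀ F ord j X

theorem RM_aux (r : ℕ) : auxLevel r = 4 ∨ auxLevel r = 9 := by
  unfold auxLevel
  split_ifs
  · exact Or.inr rfl
  · exact Or.inl rfl

theorem RM_aux_not_dvd {r : ℕ} (hr : r.Prime) : ¬ r ∣ auxLevel r := by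
  unfold auxLevel
  split_ifs with h
  · subst h; norm_num
  · intro hd
    have h2 : r ∣ 2 ^ 2 := by norm_num; exact hd
    exact h ((Nat.prime_dvd_prime_iff_eq hr Nat.prime_two).1 (hr.dvd_of_dvd_pow h2))

/-- the units and `β`. -/
theorem RM_facts (hW1 : CAR.Unit.Stmt_W1) (hXT : Stmt_XTab) (hFX : Stmt_FactsX)
    (hFB : Stmt_FactsB) (hFB2 : Stmt_FactsB2)
    (A : ValuationSubring Qbar) (r M : ℕ) [NeZero r] [NeZero M] [NeZero (r * M)]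
    [NeZero (r ^ 2 * M)] (C : Ctx A r M) (t₀ : FE A M) (haux : auxLevel r ∣ M)
    (hT : IsT A (auxLevel r) t₀) :
    ∃ X : FactsX (AE A) (FE A (r ^ 2 * M)) r C.ord (jE A (r ^ 2 * M) 1),
      Nonempty (FactsB (AE A) (FE A (r ^ 2 * M)) r C.ord (jE A (r ^ 2 * M) 1) X.aM) := by
  by_cases h2 : r = 2
  · have ha : auxLevel r = 9 := by unfold auxLevel; rw [if_pos h2]
    rw [ha] at haux
    obtain ⟨T⟩ := hXT A r M C 9 lf9 _ hW1.2 haux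
    obtain ⟨X, -, -, -⟩ := hFX A r M C 9 lf9 _ T hW1.2
    exact ⟨X, RM_factsB2 hFB2 _ _ r h2 _ _ X⟩
  · have ha : auxLevel r = 4 := by unfold auxLevel; rw [if_neg h2]
    rw [ha] at haux hT
    obtain ⟨T⟩ := hXT A r M C 4 lf4 _ hW1.1 haux
    obtain ⟨X, -, -, hM⟩ := hFX A r M C 4 lf4 _ T hW1.1
    refine ⟨X, ?_⟩
    rw [hM]
    exact hFB A r M C T t₀ h2 haux hT

/-- the coercion `FE A N → LE A` as a ring homomorphism. -/
def RM_coe (A : ValuationSubring Qbar) (N : ℕ) : FE A N →+* LaurentSeries (IE A) :=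
  algebraMap (FE A N) (Base.LE A)

theorem RM_coe_apply (A : ValuationSubring Qbar) (N : ℕ) (x : FE A N) :
    RM_coe A N x = (x : Base.LE A) := rfl

theorem RM_phiA (A : ValuationSubring Qbar) (N : ℕ) (x : FE A N) :
    phiA A N x = cmE A (x : Base.LE A) := rfl

/-- the coercion of `t = i02 C t₀`. -/
theorem RM_coe_t {A : ValuationSubring Qbar} {r M : ℕ} [NeZero r] [NeZero M] [NeZero (r * M)]
    [NeZero (r ^ 2 * M)] (C : Ctx A r M) (x : FE A M) :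
    ((i02 C x : FE A (r ^ 2 * M)) : Base.LE A) = (x : Base.LE A) := by
  show ((C.i12 (C.i01 x) : FE A (r ^ 2 * M)) : Base.LE A) = _
  rw [C.hi12, C.hi01]

theorem RM_order_tq_inv (K : Type) [Field K] (a : ℕ) : 0 < ((HM.tq a K)⁻¹).order := by
  have h1 : (HM.tq a K).coeff (-1) = 1 := HM.coeff_tq_neg_one K a
  have hne : HM.tq a K ≠ 0 := by
    intro h
    rw [h] at h1
    simp at h1
  have h2 : (HM.tq a K).order = -1 := by
    apply le_antisymm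
    · exact HahnSeries.order_le_of_coeff_ne_zero (by rw [h1]; exact one_ne_zero)
    · by_contra hlt
      rw [not_le] at hlt
      exact hne (HahnSeries.coeff_order_eq_zero.1 (HM.coeff_tq_of_lt K a hlt))
  have h3 : (HM.tq a K * (HM.tq a K)⁻¹).order = (HM.tq a K).order + ((HM.tq a K)⁻¹).order :=
    HahnSeries.order_mul hne (inv_ne_zero hne)
  rw [mul_inv_cancel₀ hne, HahnSeries.order_one, h2] at h3
  omega

/-- the output of [UNIT] (same shape as `CAR.Unit.Stmt_Facts`). -/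
def Stmt_FactsXB : Prop :=
  ∀ (A : ValuationSubring Qbar) (r M : ℕ) [NeZero r] [NeZero M] [NeZero (r * M)]
    [NeZero (r ^ 2 * M)] (C : Ctx A r M), auxLevel r ∣ M →
    ∃ X : FactsX (AE A) (FE A (r ^ 2 * M)) r C.ord (jE A (r ^ 2 * M) 1),
      Nonempty (FactsB (AE A) (FE A (r ^ 2 * M)) r C.ord (jE A (r ^ 2 * M) 1) X.aM)

/-- **INST-RM**, core form. -/
theorem instRM_core (hMkZ : Stmt_MkZ) (hCtx : Stmt_Ctx) (hT : Stmt_T) (hBez : Stmt_Bez)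
    (hJT : Stmt_JT) (hFJ : Stmt_FactsJ) (hXB : Stmt_FactsXB) (hLoc : Stmt_LocInst)
    (hGood : Stmt_Good)
    (hRoot : Stmt_RootAbs) (hW : Stmt_FrickeE) (hHD : Stmt_HDivInst) (hM1 : Val.Stmt_Main1)
    (hM2 : Val.Stmt_Main2) (hNU : Val.Stmt_NormU) (hPM : Val.Stmt_PM) (hOrd : Val.Stmt_OrdOf)
    (hDVR : Base.Stmt_DVR) (hMu : Base.Stmt_Mu) (hFin : Base.Stmt_Fin)
    (hIC : Base.Stmt_IntConst) : Stmt_InstRM := by
  intro r M _ _ _ _ hr hrM haux A hA _ m hm hrm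
  obtain ⟨C⟩ := hCtx A r M hr hrM hA
  have ha := RM_aux r
  obtain ⟨t₀, hT₀, htr₀⟩ := hT A (auxLevel r) M ha haux
  -- the coordinate
  obtain ⟨t, ht⟩ : ∃ t : FE A (r ^ 2 * M), t = i02 C t₀ := ⟨_, rfl⟩
  have htc : (t : Base.LE A) = HM.tq (auxLevel r) (IE A) := by rw [ht, RM_coe_t, hT₀]
  have htr : Transcendental (IE A) t := by
    obtain ⟨t', hT', htr'⟩ := hT A (auxLevel r) (r ^ 2 * M) ha (Dvd.dvd.mul_left haux _)
    have : t = t' := Subtype.ext (by rw [htc, hT'])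
    rw [this]
    exact htr'
  have htr' : Transcendental (IE A) t⁻¹ := fun h => htr (by simpa using h.inv)
  -- [VAL]
  obtain ⟨hunif, hordr, hordpM, -, -, -, ⟨D₁, hD₁π, hD₁N⟩, ⟨D₂, hD₂π, hD₂N⟩, -, -⟩ := hM1 A r M C
  obtain ⟨-, hcen1, hcen2⟩ := hM2 A r M C t₀ (hGood A r M t₀ hr hrM hA haux hT₀) htr₀
  have hmul : OrdMul C.ord := fun X => (hOrd _ (C.O X) (C.unif X) (hunif X)).2.2.1
  have hr0 : (r : FE A (r ^ 2 * M)) ≠ 0 := Nat.cast_ne_zero.2 hr.ne_zero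
  -- [REG]
  obtain ⟨J, hJ⟩ := hFJ A r M C
  obtain ⟨X, ⟨Y⟩⟩ := hXB A r M C haux
  -- Bezout
  obtain ⟨hau, -, -⟩ := hMu r A hr hA (auxLevel r) (by rcases ha with h | h <;> rw [h] <;> norm_num)
    (RM_aux_not_dvd hr)
  obtain ⟨⟨u, v, huv⟩, ⟨u', v', huv'⟩, hd0⟩ := hBez (auxLevel r) (AE A) ha hau
  obtain ⟨hjt, hjt'⟩ := hJT (auxLevel r) (AE A) (IE A) (FE A (r ^ 2 * M)) (RM_coe A _)
    (jE A (r ^ 2 * M) 1) t ha (isJE_jE A _ (one_dvd _)) htc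
  -- (D0)
  obtain ⟨-, hirr⟩ := hDVR r A hr hA
  obtain ⟨htrA, hfin⟩ := hFin A (r ^ 2 * M) t htr
  obtain ⟨hmu, ⟨ζ, hζ⟩, hroot⟩ := hMu r A hr hA m hm.ne' hrm
  -- [LOC]
  obtain ⟨hn1, hn2, hl1, hl2⟩ := hLoc A r M C t₀ haux hT₀ D₁ D₂ hD₁π hD₁N hD₂π hD₂N
  -- (D5)
  have ht0 : t ≠ 0 := by
    rintro rfl
    exact htr (isAlgebraic_zero)
  have hrt : RootOut (AE A) (FE A (r ^ 2 * M)) (Base.LE A) ((r : ℕ) : AE A) t⁻¹ m := by
    refine hRoot (AE A) (IE A) (FE A (r ^ 2 * M)) _ t⁻¹ m hirr hm.ne' (fun a => ?_)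
      (inv_ne_zero ht0) ?_ hroot
    · have h1 : algebraMap (FE A (r ^ 2 * M)) (Base.LE A) (algebraMap (AE A) (FE A (r ^ 2 * M)) a)
          = algebraMap (AE A) (Base.LE A) a := (IsScalarTower.algebraMap_apply _ _ _ a).symm
      rw [h1, algebraMap_AE_LE, ModularCurve.algebraMap_laurentSeries_eq_single]
      rfl
    · have h1 : algebraMap (FE A (r ^ 2 * M)) (Base.LE A) t⁻¹ = (HM.tq (auxLevel r) (IE A))⁻¹ := by
        rw [map_inv₀, ← htc]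
        rfl
      rw [h1]
      exact RM_order_tq_inv _ _
  -- the `ZData`
  have key : ∀ j0 : FE A (r ^ 2 * M), J.j = j0 →
      ∀ (X : FactsX (AE A) (FE A (r ^ 2 * M)) r C.ord j0)
        (_Y : FactsB (AE A) (FE A (r ^ 2 * M)) r C.ord j0 X.aM),
      j0 * aeval t (HM.jDenP (auxLevel r) (AE A)) = aeval t (HM.jNumP (auxLevel r) (AE A)) →
      j0 * aeval t⁻¹ (jDen2 (auxLevel r) (AE A)) = aeval t⁻¹ (jNum2 (auxLevel r) (AE A)) →
      ∃ Z : ZData (AE A) (FE A (r ^ 2 * M)) (FE A (r * M)) (Base.LE A),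
        Z.ϖ = ((r : ℕ) : AE A) ∧ Z.t = t ∧ Z.m = m ∧ Z.r = r ∧
        (∀ x, Z.D₁.N x = D₁.N x) ∧ (∀ x, Z.D₂.N x = D₂.N x) := by
    intro j0 hj0
    subst hj0
    intro X Y h1 h2
    exact hMkZ (AE A) (FE A (r ^ 2 * M)) (FE A (r * M)) (Base.LE A) t m r ζ C.ord C.pM X.aC D₁ D₂
      C.i12.fieldRange J X Y _ _ u v _ _ u' v' hirr htrA hfin (hIC A) hmu hζ hroot hr.two_le
      ((Nat.Prime.coprime_iff_not_dvd hr).2 hrm) hmul ⟨hr0, hordr⟩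
      ⟨(hPM A r M C).1, hordpM⟩ X.ordC (ht ▸ RM_cenOutB _ _ _ _ _ _ hcen1)
      (ht ▸ RM_cenOutB _ _ _ _ _ _ hcen2) huv h1 huv' h2 hd0 (ht ▸ hn1) (ht ▸ hn2) (ht ▸ hl1)
      (ht ▸ hl2) hrt
  obtain ⟨Z, hZϖ, hZt, hZm, hZr, hZ1, hZ2⟩ := key _ hJ X Y hjt hjt'
  refine ⟨Z, hZm, hZr, hZϖ, ?_, ?_, ?_⟩
  · intro ξ hξ x
    rw [hZ2, hD₂N]
    exact (hNU A r M C ξ hξ x).1
  · obtain ⟨w, hw1, hw2⟩ := hW A (r * M)
    refine ⟨w, hw1, fun ξ hξ x => ?_⟩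
    rw [hZ1, hD₁N, ← (hNU A r M C ξ hξ x).2, ← hw2]
    rfl
  · intro x hx
    rw [hZt, hZϖ]
    exact ⟨hHD A r (r ^ 2 * M) m t x hr hA htr hx, hHD A r (r ^ 2 * M) m t⁻¹ x hr hA htr' hx⟩

/-- **INST-RM**. -/
theorem instRM (hMkZ : Stmt_MkZ) (hCtx : Stmt_Ctx) (hT : Stmt_T) (hBez : Stmt_Bez) (hJT : Stmt_JT)
    (hFJ : Stmt_FactsJ) (hW1 : CAR.Unit.Stmt_W1) (hXT : Stmt_XTab) (hFX : Stmt_FactsX)
    (hFB : Stmt_FactsB) (hFB2 : Stmt_FactsB2) (hLoc : Stmt_LocInst) (hGood : Stmt_Good)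
    (hRoot : Stmt_RootAbs) (hW : Stmt_FrickeE) (hHD : Stmt_HDivInst) (hM1 : Val.Stmt_Main1)
    (hM2 : Val.Stmt_Main2) (hNU : Val.Stmt_NormU) (hPM : Val.Stmt_PM) (hOrd : Val.Stmt_OrdOf)
    (hDVR : Base.Stmt_DVR) (hMu : Base.Stmt_Mu) (hFin : Base.Stmt_Fin)
    (hIC : Base.Stmt_IntConst) : Stmt_InstRM := by
  refine instRM_core hMkZ hCtx hT hBez hJT hFJ ?_ hLoc hGood hRoot hW hHD hM1 hM2 hNU hPM hOrd hDVR
    hMu hFin hIC
  intro A r M _ _ _ _ C haux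
  obtain ⟨t₀, hT₀, -⟩ := hT A (auxLevel r) M (RM_aux r) haux
  exact RM_facts hW1 hXT hFX hFB hFB2 A r M C t₀ haux hT₀

end Fermat.Agent.S36.Inst

end
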