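import Fermat.Agent.S36.Inst.RM
import Fermat.Agent.CAR.Unit.Interface4

/-!
# S36 / Inst : the final assembly `Stmt_InstRM`, variant consuming `CAR.Unit.Stmt_Facts` (helper37)

Copy of helper45's `instRM` (Inst/RM.lean); the hypotheses `Stmt_W1, Stmt_XTab, Stmt_FactsX, Stmt_FactsB,
Stmt_FactsB2` are replaced by the single `CAR.Unit.Stmt_Facts`, which is proved unconditionally in
`CAR/Unit/Main2.lean` (`CAR.Unit.U.facts`).
-/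

set_option autoImplicit false

noncomputable section

namespace Fermat.Agent.S36.Inst

open Fermat.Agent
open Fermat.Agent.S24 (Qbar FF jF)
open Fermat.Agent.KL Fermat.Agent.S36 Fermat.Agent.S36.Reg Fermat.Agent.S36.Base
open Fermat.Agent.S36.Val Fermat.Agent.S36.Dict
open Fermat.Agent.ES.Mid (tw IsDiv)
open ModularCurve (qExpand)
open Polynomial

/-- **INST-RM**, with the units and `β` taken from `CAR.Unit.Stmt_Facts` (proved: `CAR.Unit.U.facts`). -/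
theorem instRM' (hMkZ : Stmt_MkZ) (hCtx : Stmt_Ctx) (hT : Stmt_T) (hBez : Stmt_Bez) (hJT : Stmt_JT)
    (hFJ : Stmt_FactsJ) (hFacts : CAR.Unit.Stmt_Facts) (hLoc : Stmt_LocInst) (hGood : Stmt_Good)
    (hRoot : Stmt_RootAbs) (hW : Stmt_FrickeE) (hHD : Stmt_HDivInst) (hM1 : Val.Stmt_Main1)
    (hM2 : Val.Stmt_Main2) (hNU : Val.Stmt_NormU) (hPM : Val.Stmt_PM) (hOrd : Val.Stmt_OrdOf)
    (hDVR : Base.Stmt_DVR) (hMu : Base.Stmt_Mu) (hFin : Base.Stmt_Fin)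
    (hIC : Base.Stmt_IntConst) : Stmt_InstRM := by
  intro r M _ _ _ _ hr hrM haux A hA _ m hm hrm
  obtain ⟨C⟩ := hCtx A r M hr hrM hA
  have ha := RM_aux r
  obtain ⟨t₀, hT₀, htr₀⟩ := hT A (auxLevel r) M ha haux
  -- the coordinate
  obtain ⟨t, ht⟩ : ∃ t : FE A (r ^ 2 * M), t = i02 C t₀ := ⟨_, rfl⟩
  have htc : (t : Base.LE A) = HM.tq (auxLevel r) (IE A) := by rw [ht, RM_coe_t, hT₀]
  have htr : Transcendental (IE A) t := by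
    obtain ⟨t', hT', htr'⟩ := hT A (auxLevel r) (r ^ 2 * M) ha (Dvd.dvd.mul_left haux _)
    have : t = t' := Subtype.ext (by rw [htc, hT'])
    rw [this]
    exact htr'
  have htr' : Transcendental (IE A) t⁻¹ := fun h => htr (by simpa using h.inv)
  -- [VAL]
  obtain ⟨hunif, hordr, hordpM, -, -, -, ⟨D₁, hD₁π, hD₁N⟩, ⟨D₂, hD₂π, hD₂N⟩, -, -⟩ := hM1 A r M C
  obtain ⟨-, hcen1, hcen2⟩ := hM2 A r M C t₀ (hGood A r M t₀ hr hrM hA haux hT₀) htr₀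
  have hmul : OrdMul C.ord := fun X => (hOrd _ (C.O X) (C.unif X) (hunif X)).2.2.1
  have hr0 : (r : FE A (r ^ 2 * M)) ≠ 0 := Nat.cast_ne_zero.2 hr.ne_zero
  -- [REG]
  obtain ⟨J, hJ⟩ := hFJ A r M C
  obtain ⟨X, ⟨Y⟩⟩ := hFacts A r M C haux
  -- Bezout
  obtain ⟨hau, -, -⟩ := hMu r A hr hA (auxLevel r) (by rcases ha with h | h <;> rw [h] <;> norm_num)
    (RM_aux_not_dvd hr)
  obtain ⟨⟨u, v, huv⟩, ⟨u', v', huv'⟩, hd0⟩ := hBez (auxLevel r) (AE A) ha hau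
  obtain ⟨hjt, hjt'⟩ := hJT (auxLevel r) (AE A) (IE A) (FE A (r ^ 2 * M)) (RM_coe A _)
    (jE A (r ^ 2 * M) 1) t ha (isJE_jE A _ (one_dvd _)) htc
  -- (D0)
  obtain ⟨-, hirr⟩ := hDVR r A hr hA
  obtain ⟨htrA, hfin⟩ := hFin A (r ^ 2 * M) t htr
  obtain ⟨hmu, ⟨ζ, hζ⟩, hroot⟩ := hMu r A hr hA m hm.ne' hrm
  -- [LOC]
  obtain ⟨hn1, hn2, hl1, hl2⟩ := hLoc A r M C t₀ haux hT₀ D₁ D₂ hD₁π hD₁N hD₂π hD₂N
  -- (D5)
  have ht0 : t ≠ 0 := by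
    rintro rfl
    exact htr (isAlgebraic_zero)
  have hrt : RootOut (AE A) (FE A (r ^ 2 * M)) (Base.LE A) ((r : ℕ) : AE A) t⁻¹ m := by
    refine hRoot (AE A) (IE A) (FE A (r ^ 2 * M)) _ t⁻¹ m hirr hm.ne' (fun a => ?_)
      (inv_ne_zero ht0) ?_ hroot
    · have h1 : algebraMap (FE A (r ^ 2 * M)) (Base.LE A) (algebraMap (AE A) (FE A (r ^ 2 * M)) a)
          = algebraMap (AE A) (Base.LE A) a := (IsScalarTower.algebraMap_apply _ _ _ a).symm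
      rw [h1, algebraMap_AE_LE, ModularCurve.algebraMap_laurentSeries_eq_single]
      rfl
    · have h1 : algebraMap (FE A (r ^ 2 * M)) (Base.LE A) t⁻¹ = (HM.tq (auxLevel r) (IE A))⁻¹ := by
        rw [map_inv₀, ← htc]
        rfl
      rw [h1]
      exact RM_order_tq_inv _ _
  -- the `ZData`
  have key : ∀ j0 : FE A (r ^ 2 * M), J.j = j0 →
      ∀ (X : FactsX (AE A) (FE A (r ^ 2 * M)) r C.ord j0)
        (_Y : FactsB (AE A) (FE A (r ^ 2 * M)) r C.ord j0 X.aM),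
      j0 * aeval t (HM.jDenP (auxLevel r) (AE A)) = aeval t (HM.jNumP (auxLevel r) (AE A)) →
      j0 * aeval t⁻¹ (jDen2 (auxLevel r) (AE A)) = aeval t⁻¹ (jNum2 (auxLevel r) (AE A)) →
      ∃ Z : ZData (AE A) (FE A (r ^ 2 * M)) (FE A (r * M)) (Base.LE A),
        Z.ϖ = ((r : ℕ) : AE A) ∧ Z.t = t ∧ Z.m = m ∧ Z.r = r ∧
        (∀ x, Z.D₁.N x = D₁.N x) ∧ (∀ x, Z.D₂.N x = D₂.N x) := by
    intro j0 hj0
    subst hj0
    intro X Y h1 h2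
    exact hMkZ (AE A) (FE A (r ^ 2 * M)) (FE A (r * M)) (Base.LE A) t m r ζ C.ord C.pM X.aC D₁ D₂
      C.i12.fieldRange J X Y _ _ u v _ _ u' v' hirr htrA hfin (hIC A) hmu hζ hroot hr.two_le
      ((Nat.Prime.coprime_iff_not_dvd hr).2 hrm) hmul ⟨hr0, hordr⟩
      ⟨(hPM A r M C).1, hordpM⟩ X.ordC (ht ▸ RM_cenOutB _ _ _ _ _ _ hcen1)
      (ht ▸ RM_cenOutB _ _ _ _ _ _ hcen2) huv h1 huv' h2 hd0 (ht ▸ hn1) (ht ▸ hn2) (ht ▸ hl1)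
      (ht ▸ hl2) hrt
  obtain ⟨Z, hZϖ, hZt, hZm, hZr, hZ1, hZ2⟩ := key _ hJ X Y hjt hjt'
  refine ⟨Z, hZm, hZr, hZϖ, ?_, ?_, ?_⟩
  · intro ξ hξ x
    rw [hZ2, hD₂N]
    exact (hNU A r M C ξ hξ x).1
  · obtain ⟨w, hw1, hw2⟩ := hW A (r * M)
    refine ⟨w, hw1, fun ξ hξ x => ?_⟩
    rw [hZ1, hD₁N, ← (hNU A r M C ξ hξ x).2, ← hw2]
    rfl
  · intro x hx
    rw [hZt, hZϖ]
    exact ⟨hHD A r (r ^ 2 * M) m t x hr hA htr hx, hHD A r (r ^ 2 * M) m t⁻¹ x hr hA htr' hx⟩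

end Fermat.Agent.S36.Inst

end
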