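import Fermat.Agent.S36.Inst.Concrete

/-!
# S36 / Inst : (C4') the relation `j * jDenP(t) = jNumP(t)` in `FE A N` (helper58)
-/

set_option autoImplicit false

namespace Fermat.Agent.S36.Inst

open Fermat.Agent
open Fermat.Agent.S24 (Qbar FF)
open Fermat.Agent.S36.Base Fermat.Agent.S36.Val
open Polynomial

/-- abstract form: transport of the two relations along an injective ring homomorphism. -/
theorem RelJT_abs (a : ℕ) (A₀ F L : Type) [CommRing A₀] [Field F] [CommRing L] [Algebra A₀ F]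
    (φ : F →+* L) (hφ : Function.Injective φ) (j t : F)
    (h4 : a = 4 → φ j * (φ t ^ 4 * (φ t + 16)) = (φ t ^ 2 + 256 * φ t + 4096) ^ 3)
    (h9 : a = 9 → φ j * (φ t ^ 9 * (φ t ^ 2 + 9 * φ t + 27))
      = ((φ t + 9) * (φ t ^ 3 + 243 * φ t ^ 2 + 2187 * φ t + 6561)) ^ 3)
    (ha : a = 4 ∨ a = 9) :
    j * aeval t (HM.jDenP a A₀) = aeval t (HM.jNumP a A₀) := by
  apply hφ
  rcases ha with rfl | rfl
  · simp only [HM.jDenP, HM.jNumP, if_true, map_mul, map_pow, map_add, aeval_X, map_ofNat]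
    exact h4 rfl
  · simp only [HM.jDenP, HM.jNumP, show (9 : ℕ) ≠ 4 by norm_num, if_false, map_mul, map_pow,
      map_add, aeval_X, map_ofNat]
    exact h9 rfl

theorem relJT : Stmt_RelJT := by
  intro A a N _ t ha ht
  have hj : ((jE A N 1 : FE A N) : Base.LE A) = S28.jd (IE A) 1 := isJE_jE A N (one_dvd N)
  refine RelJT_abs a (AE A) (FE A N) (Base.LE A) (algebraMap (FE A N) (Base.LE A))
    (algebraMap (FE A N) (Base.LE A)).injective (jE A N 1) t ?_ ?_ ha
  · rintro rfl
    have e1 : algebraMap (FE A N) (Base.LE A) t = HM.tq4 (IE A) := by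
      refine ht.trans ?_
      simp only [HM.tq, if_true]
    have e2 : algebraMap (FE A N) (Base.LE A) (jE A N 1) = S28.jd (IE A) 1 := hj
    rw [e1, e2]
    exact HM.r4_j1 (IE A)
  · rintro rfl
    have e1 : algebraMap (FE A N) (Base.LE A) t = HM.tq9 (IE A) := by
      refine ht.trans ?_
      simp only [HM.tq, show (9 : ℕ) ≠ 4 by norm_num, if_false]
    have e2 : algebraMap (FE A N) (Base.LE A) (jE A N 1) = S28.jd (IE A) 1 := hj
    rw [e1, e2]
    exact HM.r9_j1 (IE A)

end Fermat.Agent.S36.Inst
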