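import Fermat.Agent.S36.Inst.Concrete
import Fermat.Agent.CAR.Unit.Interface3

/-!
# S36 / Inst : INST-XT, the series level table of `x₁`, `x₂` under the three embeddings

Everything is already contained in the output of [UNIT] (`CAR/Unit/Interface3.lean`):
`Stmt_MU` (the lists are modular units), `Stmt_eltE` (descent to `F_E`), `Stmt_phiX` (the images under
the three embeddings), `Stmt_etaL_elt` (integrality over `ℚ̄[j]`).
-/

set_option autoImplicit false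

noncomputable section

namespace Fermat.Agent.S36.Inst

open Fermat.Agent
open Fermat.Agent.S24 (Qbar FF jF)
open Fermat.Agent.S36.Base Fermat.Agent.S36.Val
open Fermat.Agent.CAR.Unit (etaLser lx1 lx2 negL scaleL W1 MU IsEta)

/-- an element of `F_E` with an eta series as expansion is the element of `FF N` with the same
expansion. -/
theorem XTab_emb_eq (hS : CAR.Unit.Stmt_serCalc) (A : ValuationSubring Qbar) {N : ℕ}
    (x : FE A N) (y : FF N) (n : ℤ) (l : List (ℕ × ℤ)) (hx : IsEta A x n l)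
    (hy : (y : LaurentSeries Qbar) = etaLser Qbar n l) : emb A N x = y := by
  apply Subtype.ext
  rw [coe_emb, hy, show (x : Base.LE A) = etaLser (IE A) n l from hx]
  exact hS.1 (IE A) Qbar (algebraMap (IE A) Qbar) n l

theorem xTab (hMU : CAR.Unit.Stmt_MU) (hE : CAR.Unit.Stmt_eltE) (hP : CAR.Unit.Stmt_phiX)
    (hS : CAR.Unit.Stmt_serCalc) (h1 : CAR.Unit.Stmt_etaL_elt) : Stmt_XTab := by
  intro A r M _ _ _ _ C a lf χ hW ha
  have hr : 0 < r := C.hr.pos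
  have hM : 0 < M := Nat.pos_of_ne_zero (NeZero.ne M)
  obtain ⟨-, -, hlev, -, hx, -, -⟩ := hMU
  obtain ⟨m1, m2⟩ := hx a lf χ r M hW ha hr hM
  have hdvd : r * M ∣ r ^ 2 * M := ⟨r, by ring⟩
  have m1' : MU (r ^ 2 * M) 0 (lx1 lf r) := hlev (r * M) (r ^ 2 * M) 0 _ hdvd m1
  obtain ⟨x1, hx1⟩ := hE A (r ^ 2 * M) 0 _ m1'
  obtain ⟨x2, hx2⟩ := hE A (r ^ 2 * M) 0 _ m2
  obtain ⟨a1, a2, b1, ⟨ε₃, h₃, b2⟩, ⟨ε₁, h₁, c1⟩, ⟨ε₂, h₂, c2⟩⟩ :=
    hP A r M C a lf χ x1 x2 hW ha hx1 hx2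
  obtain ⟨y1, hy1, -, i1, i1'⟩ := h1 (r ^ 2 * M) _ 0 m1'.pos m1'.wt m1'.deg m1'.inv
  obtain ⟨y2, hy2, -, i2, i2'⟩ := h1 (r ^ 2 * M) _ 0 m2.pos m2.wt m2.deg m2.inv
  have e1 : emb A (r ^ 2 * M) x1 = y1 := XTab_emb_eq hS A x1 y1 0 _ hx1 hy1
  have e2 : emb A (r ^ 2 * M) x2 = y2 := XTab_emb_eq hS A x2 y2 0 _ hx2 hy2
  exact ⟨{ x1 := x1, x2 := x2, ε₁ := ε₁, ε₂ := ε₂, ε₃ := ε₃, h₁ := h₁, h₂ := h₂, h₃ := h₃
           A1 := a1, A2 := a2, C1 := c1, C2 := c2, M1 := b1, M2 := b2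
           int1 := e1 ▸ i1, int1' := e1 ▸ i1', int2 := e2 ▸ i2, int2' := e2 ▸ i2' }⟩

end Fermat.Agent.S36.Inst

end
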